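import Fermat.Agent.S19.I.Defs
import Fermat.Agent.S19.H.Basis
import Fermat.Agent.S19.H.Local

/-!
# S19-I : the integral basis of the equivariant functions, from S19-H
-/

set_option autoImplicit false

noncomputable section

namespace Fermat.Agent.S19.I

open Fermat.Agent.S19

variable {A : ValuationSubring Qb} {ℓ : ℕ} [Fact ℓ.Prime]

/-- [`a` from `S19.exists_basis A hA hY`; `ED A ⊤ Y ⊆ ED A (Dc A) Y`.  For `f ∈ ED A (Dc A) Y`: `f ∈ MG A Y` (`S19.ED_subset_MG`), the
`A`-span of `ED A ⊤ Y`; `Submodule.span_induction`: an element of `ED A ⊤ Y` is `∑ algebraMap (c i) • a i` with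
`algebraMap (Rl ℓ) Qb (c i) ∈ A` (`S19.algebraMap_Rl_mem`); sums and `A`-multiples are clear.] -/
theorem hasBasis (hA : A.LiesOverPrime ℓ) {Y : Type} [Fintype Y] [MulAction GQ Y]
    (hY : FinLevel Y) : HasBasis A Y := by
  classical
  obtain ⟨a, ha, hli, hrep⟩ := S19.exists_basis (X := Y) A hA hY
  refine ⟨a, fun i => ⟨(ha i).1, fun σ _ x => (ha i).2 σ (Subgroup.mem_top σ) x⟩, hli, ?_⟩
  intro f hf
  have hfM : f ∈ MG A Y := S19.ED_subset_MG A hA hY hf
  unfold MG at hfM
  clear hf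
  induction hfM using Submodule.span_induction with
  | mem x hx =>
    obtain ⟨c, hc⟩ := hrep x hx
    exact ⟨fun i => algebraMap (Rl ℓ) Qb (c i), fun i => S19.algebraMap_Rl_mem A hA (c i), hc⟩
  | zero => exact ⟨fun _ => 0, fun _ => A.zero_mem, by simp⟩
  | add x y _ _ hx hy =>
    obtain ⟨c, hc, ex⟩ := hx
    obtain ⟨d, hd, ey⟩ := hy
    refine ⟨fun i => c i + d i, fun i => add_mem (hc i) (hd i), ?_⟩
    rw [ex, ey, ← Finset.sum_add_distrib]
    exact Finset.sum_congr rfl fun i _ => (add_smul _ _ _).symm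
  | smul r x _ hx =>
    obtain ⟨c, hc, ex⟩ := hx
    refine ⟨fun i => (r : Qb) * c i, fun i => mul_mem r.2 (hc i), ?_⟩
    rw [ex, Finset.smul_sum]
    refine Finset.sum_congr rfl fun i _ => ?_
    rw [mul_smul]
    rfl

end Fermat.Agent.S19.I
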