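import Fermat.Agent.S19.I.CDefs
import Fermat.Agent.GR.F.Kummer

/-!
# S19-I : coefficientwise descent of an equivariant family of integral `q`-expansions
-/

set_option autoImplicit false
set_option synthInstance.maxHeartbeats 400000

noncomputable section

namespace Fermat.Agent.S19.I

open AlgebraicCurve ModularCurve Fermat.Agent.GR Fermat.Agent.S17.FF Fermat.Agent.S19

variable {A : ValuationSubring Qb} {N' : ℕ}
variable {φ : GQ →* SemilinearAut Qb (FF Qb N')}

/-- the `n`-th coefficient, as a linear form. -/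
def Ser_cf (N' : ℕ) (n : ℤ) : FF Qb N' →ₗ[Qb] Qb where
  toFun x := (x : LaurentSeries Qb).coeff n
  map_add' x y := by
    rw [IntermediateField.coe_add, HahnSeries.coeff_add]
  map_smul' z x := by
    have h1 : ((algebraMap Qb (FF Qb N') z * x : FF Qb N') : LaurentSeries Qb) =
        HahnSeries.C z * (x : LaurentSeries Qb) := by
      rw [kummer_C_eq_algebraMap]
      rfl
    rw [Algebra.smul_def, h1, HahnSeries.C_mul_eq_smul, HahnSeries.coeff_smul, RingHom.id_apply]

theorem Ser_cf_apply (n : ℤ) (x : FF Qb N') : Ser_cf N' n x = (x : LaurentSeries Qb).coeff n := rfl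

/-- (SER).  [classical.  `M := Matrix.of a` is invertible (`Matrix.linearIndependent_rows_iff_isUnit`), `B := M⁻¹`:
`∑ y, a i y * B y j = δ i j` and `∑ i, B y i * a i y' = δ y y'`.  `f i := ∑ y, B y i • u y` (in the span).
`∑ i, a i y' • f i = ∑ y, (∑ i, B y i * a i y') • u y = u y'`.
For `n : ℤ` the function `c_n y := (u y).coeff n` is in `ED A (Dc A) Y` (`hint`; `hu`, `hφ`, `gal_coeff`), so `c_n = ∑ j, r j • a j`, `r j ∈ A`
(`hsp`), and `(f i).coeff n = ∑ y, B y i * c_n y = r i ∈ A`.  (The coercion `FF Qb N' → LaurentSeries Qb` is `Qb`-linear;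
`(z • x).coeff n = z * x.coeff n`.)
Invariance: `(φ σ • f i).coeff n = σ (r i)`; from `c_n (σ • y) = σ (c_n y)` and `a j (σ • y) = σ (a j y)`:
`∑ j, (r j - σ (r j)) • a j = 0` (evaluate at `σ • y`; `y ↦ σ • y` is onto), so `σ (r j) = r j` by `hli`.] -/
theorem exists_desc_int (hφ : IsGal φ) {Y : Type} [Fintype Y] [MulAction GQ Y] (a : Y → Y → Qb)
    (ha : ∀ i, a i ∈ ED A (Dc A) Y) (hli : LinearIndependent Qb a)
    (hsp : ∀ f ∈ ED A (Dc A) Y, ∃ c : Y → Qb, (∀ i, c i ∈ A) ∧ f = ∑ i, c i • a i)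
    (u : Y → FF Qb N') (hint : ∀ y, IsInt A (u y : LaurentSeries Qb))
    (hu : ∀ σ ∈ Dc A, ∀ y, u (σ • y) = φ σ • u y) :
    ∃ f : Y → FF Qb N', (∀ i, IsInt A (f i : LaurentSeries Qb)) ∧
      (∀ i, ∀ σ ∈ Dc A, φ σ • f i = f i) ∧
      (∀ i, f i ∈ Submodule.span Qb (Set.range u)) ∧ ∀ y, u y = ∑ i, a i y • f i := by
  classical
  have hunit : IsUnit (Matrix.of a) := Matrix.linearIndependent_rows_iff_isUnit.1 hli
  have hdet : IsUnit (Matrix.of a).det := (Matrix.isUnit_iff_isUnit_det _).1 hunit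
  obtain ⟨B, hB⟩ : ∃ B : Matrix Y Y Qb, B = (Matrix.of a)⁻¹ := ⟨_, rfl⟩
  have hMB : Matrix.of a * B = 1 := by rw [hB]; exact Matrix.mul_nonsing_inv _ hdet
  have hBM : B * Matrix.of a = 1 := by rw [hB]; exact Matrix.nonsing_inv_mul _ hdet
  have h1 : ∀ i j, ∑ y, a i y * B y j = if i = j then 1 else 0 := fun i j => by
    have := congrFun (congrFun hMB i) j
    rwa [Matrix.mul_apply, Matrix.one_apply] at this
  have h2 : ∀ y y', ∑ i, B y i * a i y' = if y = y' then 1 else 0 := fun y y' => by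
    have := congrFun (congrFun hBM y) y'
    rwa [Matrix.mul_apply, Matrix.one_apply] at this
  have hc : ∀ n : ℤ, (fun y => Ser_cf N' n (u y)) ∈ ED A (Dc A) Y := by
    intro n
    refine ⟨fun y => hint y n, fun σ hσ y => ?_⟩
    show ((u (σ • y) : FF Qb N') : LaurentSeries Qb).coeff n = σ ((u y : LaurentSeries Qb).coeff n)
    rw [hu σ hσ y, hφ σ (u y), gal_coeff]
  choose r hrA hr using fun n => hsp _ (hc n)
  have hr' : ∀ n y, Ser_cf N' n (u y) = ∑ j, r n j * a j y := by
    intro n y
    have := congrFun (hr n) y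
    rw [Finset.sum_apply] at this
    simpa only [Pi.smul_apply, smul_eq_mul] using this
  have hf : ∀ i n, Ser_cf N' n (∑ y, B y i • u y) = r n i := by
    intro i n
    rw [map_sum]
    calc ∑ y, Ser_cf N' n (B y i • u y) = ∑ y, ∑ j, r n j * (a j y * B y i) := by
          refine Finset.sum_congr rfl fun y _ => ?_
          rw [map_smul, hr', smul_eq_mul, Finset.mul_sum]
          exact Finset.sum_congr rfl fun j _ => by ring
      _ = ∑ j, r n j * ∑ y, a j y * B y i := by
          rw [Finset.sum_comm]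
          exact Finset.sum_congr rfl fun j _ => by rw [Finset.mul_sum]
      _ = r n i := by
          simp only [h1, mul_ite, mul_one, mul_zero, Finset.sum_ite_eq', Finset.mem_univ, if_true]
  have hinv : ∀ n, ∀ σ ∈ Dc A, ∀ j, σ (r n j) = r n j := by
    intro n σ hσ j
    have h0 : ∑ j, (r n j - σ (r n j)) • a j = 0 := by
      funext y'
      obtain ⟨y, rfl⟩ : ∃ y, σ • y = y' := ⟨σ⁻¹ • y', smul_inv_smul σ y'⟩
      rw [Finset.sum_apply, Pi.zero_apply]
      have e1 : Ser_cf N' n (u (σ • y)) = σ (Ser_cf N' n (u y)) := (hc n).2 σ hσ y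
      rw [hr', hr', map_sum] at e1
      have e2 : ∀ j, σ (r n j * a j y) = σ (r n j) * a j (σ • y) := by
        intro j
        rw [map_mul, (ha j).2 σ hσ y]
      simp only [e2] at e1
      simp only [Pi.smul_apply, smul_eq_mul, sub_mul, Finset.sum_sub_distrib]
      rw [e1, sub_self]
    have := Fintype.linearIndependent_iff.1 hli _ h0 j
    exact (sub_eq_zero.1 this).symm
  refine ⟨fun i => ∑ y, B y i • u y, fun i n => ?_, ?_, ?_, ?_⟩
  · have := hf i n
    rw [Ser_cf_apply] at this
    rw [this]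
    exact hrA n i
  · intro i σ hσ
    apply Subtype.ext
    rw [hφ]
    ext n
    rw [gal_coeff, ← Ser_cf_apply, hf, hinv n σ hσ]
  · intro i
    exact Submodule.sum_mem _ fun y _ => Submodule.smul_mem _ _ (Submodule.subset_span ⟨y, rfl⟩)
  · intro y'
    symm
    calc ∑ i, a i y' • ∑ y, B y i • u y = ∑ i, ∑ y, (B y i * a i y') • u y := by
          refine Finset.sum_congr rfl fun i _ => ?_
          rw [Finset.smul_sum]
          exact Finset.sum_congr rfl fun y _ => by rw [smul_smul, mul_comm]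
      _ = ∑ y, (∑ i, B y i * a i y') • u y := by
          rw [Finset.sum_comm]
          exact Finset.sum_congr rfl fun y _ => by rw [Finset.sum_smul]
      _ = u y' := by
          simp only [h2, ite_smul, one_smul, zero_smul, Finset.sum_ite_eq', Finset.mem_univ,
            if_true]

end Fermat.Agent.S19.I
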