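import Fermat.Agent.S19.I.Den
import Fermat.Agent.S19.I.Ser

/-!
# S19-I : `HasDesc` in the concrete situation
-/

set_option autoImplicit false
set_option synthInstance.maxHeartbeats 400000

noncomputable section

namespace Fermat.Agent.S19.I

open AlgebraicCurve ModularCurve Fermat.Agent.GR Fermat.Agent.S17.FF Fermat.Agent.S19
open Fermat.Agent.GR.S.R
open Fermat.Agent.GR.E hiding Qb

variable {A : ValuationSubring Qb} {N' : ℕ} [IsFF Qb (FF Qb N')] {𝒪 : ValuationSubring (FF Qb N')}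
variable {φ : GQ →* SemilinearAut Qb (FF Qb N')}

/-- [Fix `Y`, `hY`, `u`.  `g` from `exists_den`; `u' y := g * u y` is integral and equivariant (`smul_mul'`).  `a` from `hB Y hY`;
`f'` from `exists_desc_int hφ a _ _ _ u' _ _`.  `ι := Y`, `f i := f' i / g` (`g ≠ 0`: `Gauss_isPrim_ne_zero`).
`f i ∈ 𝒪`: `mem_gauss_of_isInt`, `inv_mem_gauss_of_isPrim`.  Invariant: `smul_div'`.  In the span of `range u`: the `Qb`-linear map
`x ↦ x / g` maps `range u'` into `range u` (`Submodule.span_induction` or `Submodule.map_span`).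
`u y = u' y / g = ∑ i, a i y • (f' i / g)` (`Finset.sum_div`, `smul_div_assoc`).] -/
theorem hasDesc (h𝒪 : IsGaussRing A N' 𝒪) (hφ : IsGal φ)
    (hB : ∀ (Y : Type) [Fintype Y] [MulAction GQ Y], FinLevel Y → HasBasis A Y) :
    HasDesc A 𝒪 φ := by
  intro Y _ _ hY u hu𝒪 hu
  obtain ⟨g, hgP, hgI, hgu⟩ := exists_den h𝒪 hφ u hu𝒪 hu
  obtain ⟨a, ha, hli, hsp⟩ := hB Y hY
  have hg0 : g ≠ 0 := by
    intro h0
    apply Gauss_isPrim_ne_zero A hgP
    rw [h0]; rfl
  obtain ⟨f', hf'I, hf'inv, hf'sp, hf'u⟩ := exists_desc_int hφ a ha hli hsp (fun y => g * u y) hgu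
    (by
      intro σ hσ y
      show g * u (σ • y) = φ σ • (g * u y)
      rw [hu σ hσ y, smul_mul', hgI σ hσ])
  refine ⟨Y, inferInstance, a, fun i => f' i * g⁻¹, ha, ?_, ?_, ?_, ?_⟩
  · intro i
    exact 𝒪.mul_mem _ _ (mem_gauss_of_isInt h𝒪 (hf'I i)) (inv_mem_gauss_of_isPrim h𝒪 hgP)
  · intro i σ hσ
    show φ σ • (f' i * g⁻¹) = f' i * g⁻¹
    rw [smul_mul', smul_inv'', hf'inv i σ hσ, hgI σ hσ]
  · intro i
    have h1 := Submodule.mem_map_of_mem (f := LinearMap.mulRight Qb g⁻¹) (hf'sp i)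
    rw [Submodule.map_span] at h1
    refine Submodule.span_mono ?_ h1
    rintro _ ⟨_, ⟨y, rfl⟩, rfl⟩
    refine ⟨y, ?_⟩
    show u y = g * u y * g⁻¹
    field_simp
  · intro y
    have h1 : g * u y = ∑ i, a i y • f' i := hf'u y
    have h2 : u y = (g * u y) * g⁻¹ := by field_simp
    rw [h2, h1, Finset.sum_mul]
    refine Finset.sum_congr rfl fun i _ => ?_
    rw [smul_mul_assoc]

end Fermat.Agent.S19.I
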