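import Fermat.Agent.S19.H.Defs

/-!
# S19-I : equivariant choice
-/

set_option autoImplicit false

noncomputable section

namespace Fermat.Agent.S19.I

open Fermat.Agent.S19

/-- [`Ω := MulAction.orbitRel.Quotient Δ Y`; for `y` let `y₀ := (Quotient.mk _ y).out`, choose `d_y` with
`d_y • y₀ = y` (`MulAction.orbitRel_apply`, `Quotient.mk_out`/`Quotient.exact`), `z₀ y₀` from `h y₀`;
`s y := d_y • z₀ y₀`.  `R y (s y)` by `hR`.  Equivariance: `y` and `d • y` have the same `y₀`, and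
`(d_{d • y})⁻¹ * d * d_y` fixes `y₀`, so it fixes `z₀ y₀`.] -/
theorem exists_equivariant {Δ Y Z : Type*} [Group Δ] [MulAction Δ Y] [MulAction Δ Z]
    (R : Y → Z → Prop) (hR : ∀ (d : Δ) (y : Y) (z : Z), R y z → R (d • y) (d • z))
    (h : ∀ y, ∃ z, R y z ∧ ∀ d : Δ, d • y = y → d • z = z) :
    ∃ s : Y → Z, (∀ (d : Δ) (y : Y), s (d • y) = d • s y) ∧ ∀ y, R y (s y) := by
  classical
  choose z₀ hz₀R hz₀fix using h
  -- the representative of the orbit of `y`
  let rep : Y → Y := fun y => (Quotient.mk (MulAction.orbitRel Δ Y) y).out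
  have hrep : ∀ y, ∃ d : Δ, d • rep y = y := by
    intro y
    have h1 : (MulAction.orbitRel Δ Y) (rep y) y := Quotient.mk_out (s := MulAction.orbitRel Δ Y) y
    have h2 : rep y ∈ MulAction.orbit Δ y := MulAction.orbitRel_apply.mp h1
    obtain ⟨e, he⟩ := h2
    refine ⟨e⁻¹, ?_⟩
    rw [← he]
    exact inv_smul_smul e y
  choose dd hdd using hrep
  have hrep_smul : ∀ (d : Δ) (y : Y), rep (d • y) = rep y := by
    intro d y
    have : Quotient.mk (MulAction.orbitRel Δ Y) (d • y) = Quotient.mk (MulAction.orbitRel Δ Y) y :=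
      Quotient.sound (MulAction.orbitRel_apply.mpr ⟨d, rfl⟩)
    simp only [rep, this]
  refine ⟨fun y => dd y • z₀ (rep y), fun d y => ?_, fun y => ?_⟩
  · show dd (d • y) • z₀ (rep (d • y)) = d • dd y • z₀ (rep y)
    rw [hrep_smul d y]
    have hfix : ((dd (d • y))⁻¹ * d * dd y) • rep y = rep y := by
      rw [mul_smul, mul_smul, hdd y, inv_smul_eq_iff]
      conv_rhs => rw [← hrep_smul d y]
      exact (hdd (d • y)).symm
    have h3 := hz₀fix (rep y) _ hfix
    rw [mul_smul, mul_smul, inv_smul_eq_iff] at h3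
    exact h3.symm
  · have h4 := hR (dd y) (rep y) (z₀ (rep y)) (hz₀R (rep y))
    rw [hdd y] at h4
    exact h4

/-- the form used below: a subgroup `U` of `GQ`, an action on `Z` given by a function.
[`Δ := ↥U`, `MulAction ↥U Y` is the restricted action (`Subgroup.smul_def`),
`MulAction ↥U Z := { smul := fun d z => act d z, one_smul := h1, mul_smul := fun a b z => hmul a b z }`.] -/
theorem exists_equivariant' (U : Subgroup GQ) {Y Z : Type} [MulAction GQ Y] (act : GQ → Z → Z)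
    (h1 : ∀ z, act 1 z = z) (hmul : ∀ σ τ z, act (σ * τ) z = act σ (act τ z))
    (R : Y → Z → Prop) (hR : ∀ σ ∈ U, ∀ (y : Y) (z : Z), R y z → R (σ • y) (act σ z))
    (h : ∀ y, ∃ z, R y z ∧ ∀ σ ∈ U, σ • y = y → act σ z = z) :
    ∃ s : Y → Z, (∀ σ ∈ U, ∀ y, s (σ • y) = act σ (s y)) ∧ ∀ y, R y (s y) := by
  letI : MulAction ↥U Z :=
    { smul := fun d z => act (d : GQ) z
      one_smul := h1
      mul_smul := fun a b z => hmul a b z }
  obtain ⟨s, hs, hsR⟩ := exists_equivariant (Δ := ↥U) (Y := Y) (Z := Z) R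
    (fun d y z hyz => hR (d : GQ) d.2 y z hyz)
    (fun y => by
      obtain ⟨z, hz, hfix⟩ := h y
      exact ⟨z, hz, fun d hd => hfix (d : GQ) d.2 hd⟩)
  exact ⟨s, fun σ hσ y => hs ⟨σ, hσ⟩ y, hsR⟩

end Fermat.Agent.S19.I
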