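import Fermat.Agent.S19.I.CDefs
import Fermat.Agent.GR.F.Normalize
import Fermat.Agent.GR.C.LinDisj
import Fermat.Agent.GR.E.BR7

/-!
# S19-I : Gauss normal form of a function over the fixed field of its stabiliser
-/

set_option autoImplicit false
set_option synthInstance.maxHeartbeats 400000

noncomputable section

namespace Fermat.Agent.S19.I

open AlgebraicCurve ModularCurve Fermat.Agent.GR Fermat.Agent.S19

theorem Fix_isAlgebraic_Qb [alg : Algebra ℚ (AlgebraicClosure ℚ)] :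
    Algebra.IsAlgebraic ℚ (AlgebraicClosure ℚ) := by
  obtain rfl : alg = AlgebraicClosure.instAlgebra ℚ := Subsingleton.elim _ _
  infer_instance

/-- [`L := IntermediateField.fixedField U` (`ℚ ≤ L ≤ Qb`, algebraic over `ℚ`).  All coefficients of `u` are fixed by `U`
(`gal_coeff`), so they lie in `L` (`IntermediateField.mem_fixedField_iff`): `GR.C.exists_coeffMap_eq` gives
`u₀ : LaurentSeries L` with `coeffMap (algebraMap L Qb) u₀ = u`, and `u₀ ∈ FF L N'` by `GR.C.mem_FF_of_coeffMap_mem`.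
`GR.exists_normalized (A.comap (algebraMap L Qb)) N' hu₀ h0'` gives `κ₀ : L`, `f₀ g₀ ∈ FF L N'` primitive,
`u₀ = C κ₀ * (f₀ / g₀)`.  Apply `coeffMap (algebraMap L Qb)` (`GR.E.coeffMap_mem_FF`; `IsPrim` is preserved:
`ValuationSubring.mem_comap`, `GR.E.BR7_mem_nonunits_comap`; `coeffMap` of `C`: `coeffMap_single`/`HahnSeries.C_apply`).
Series with coefficients in `L` are fixed by `gal σ`, `σ ∈ U` (ext, `coeffMap_coeff`).] -/
theorem exists_fixed_normalized (A : ValuationSubring Qb) (N' : ℕ) {u : LaurentSeries Qb}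
    (hu : u ∈ FF Qb N') (h0 : u ≠ 0) (U : Subgroup GQ) (hU : ∀ σ ∈ U, gal σ u = u) :
    ∃ (κ : Qb) (f g : LaurentSeries Qb), κ ≠ 0 ∧ f ∈ FF Qb N' ∧ g ∈ FF Qb N' ∧ IsPrim A f ∧
      IsPrim A g ∧ u * g = HahnSeries.C κ * f ∧
      ∀ σ ∈ U, σ κ = κ ∧ gal σ f = f ∧ gal σ g = g := by
  classical
  set L : IntermediateField ℚ Qb := IntermediateField.fixedField U with hL
  have hfixL : ∀ (x : L) (σ : GQ), σ ∈ U → σ (algebraMap L Qb x) = algebraMap L Qb x := by
    intro x σ hσ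
    exact (IntermediateField.mem_fixedField_iff U (x : Qb)).mp x.2 σ hσ
  have hfixS : ∀ (x : LaurentSeries L) (σ : GQ), σ ∈ U →
      gal σ (coeffMap (algebraMap L Qb) x) = coeffMap (algebraMap L Qb) x := by
    intro x σ hσ
    ext n
    rw [gal_coeff, coeffMap_coeff]
    exact hfixL _ σ hσ
  have hcoeff : ∀ k : ℤ, u.coeff k ∈ Set.range (algebraMap L Qb) := by
    intro k
    have hk : u.coeff k ∈ L := by
      rw [hL, IntermediateField.mem_fixedField_iff]
      intro σ hσ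
      have := congrArg (fun x => HahnSeries.coeff x k) (hU σ hσ)
      simpa using this
    exact ⟨⟨_, hk⟩, rfl⟩
  obtain ⟨u₀, hu₀⟩ := GR.C.exists_coeffMap_eq (K := L) u hcoeff
  have hu₀F : u₀ ∈ FF L N' := GR.C.mem_FF_of_coeffMap_mem (Ω := Qb) (by rw [hu₀]; exact hu)
  have hu₀0 : u₀ ≠ 0 := by
    rintro rfl
    exact h0 (by rw [← hu₀, map_zero])
  have halgQb : Algebra.IsAlgebraic ℚ Qb := Fix_isAlgebraic_Qb
  have halg : Algebra.IsAlgebraic ℚ L :=
    Algebra.IsAlgebraic.of_injective (IsScalarTower.toAlgHom ℚ L Qb)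
      (algebraMap L Qb).injective
  obtain ⟨κ₀, f₀, g₀, hκ₀, hf₀, hg₀, hpf, hpg, heq⟩ :=
    GR.exists_normalized (A.comap (algebraMap L Qb)) N' hu₀F hu₀0
  have hprim : ∀ x : LaurentSeries L, IsPrim (A.comap (algebraMap L Qb)) x →
      IsPrim A (coeffMap (algebraMap L Qb) x) := by
    rintro x ⟨h1, n, h2⟩
    refine ⟨fun m => ?_, n, ?_⟩
    · rw [coeffMap_coeff]
      exact ValuationSubring.mem_comap.mp (h1 m)
    · rw [coeffMap_coeff]
      exact fun h => h2 ((GR.E.BR7_mem_nonunits_comap _ A _).mpr h)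
  have hg₀0 : g₀ ≠ 0 := by
    rintro rfl
    obtain ⟨-, n, hn⟩ := hpg
    apply hn
    rw [HahnSeries.coeff_zero]
    exact (ValuationSubring.mem_nonunits_iff_exists_mem_maximalIdeal).mpr
      ⟨zero_mem _, zero_mem _⟩
  refine ⟨algebraMap L Qb κ₀, coeffMap (algebraMap L Qb) f₀, coeffMap (algebraMap L Qb) g₀, ?_,
    GR.E.coeffMap_mem_FF _ N' hf₀, GR.E.coeffMap_mem_FF _ N' hg₀, hprim _ hpf, hprim _ hpg, ?_, ?_⟩
  · rwa [Ne, map_eq_zero]
  · have h1 : u₀ * g₀ = HahnSeries.C κ₀ * f₀ := by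
      rw [heq, mul_assoc, div_mul_cancel₀ _ hg₀0]
    have h2 := congrArg (coeffMap (algebraMap L Qb)) h1
    rw [map_mul, map_mul, hu₀] at h2
    rw [h2]
    congr 1
    rw [HahnSeries.C_apply, coeffMap_single, HahnSeries.C_apply]
  · intro σ hσ
    exact ⟨hfixL _ σ hσ, hfixS _ σ hσ, hfixS _ σ hσ⟩

end Fermat.Agent.S19.I
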