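import Fermat.Agent.S19.I.Act
import Fermat.Agent.S19.I.Fix
import Fermat.Agent.S19.I.EqChoice

/-!
# S19-I : equivariant Gauss normalisation (`HasNorm`) and equivariant denominators
-/

set_option autoImplicit false
set_option synthInstance.maxHeartbeats 400000

noncomputable section

namespace Fermat.Agent.S19.I

open AlgebraicCurve ModularCurve Fermat.Agent.GR Fermat.Agent.S17.FF Fermat.Agent.S19
open Fermat.Agent.GR.S.R
open Fermat.Agent.GR.E hiding Qb

variable {A : ValuationSubring Qb} {N' : ℕ} {𝒪 : ValuationSubring (FF Qb N')}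
variable {φ : GQ →* SemilinearAut Qb (FF Qb N')}

/-- [Fix `Y`, `u`.  `exists_equivariant' (Dc A)` with `Z := Qb`, `act σ z := σ z`,
`R y κ := κ ≠ 0 ∧ u y / algebraMap κ ∈ 𝒪 ∧ (u y / algebraMap κ)⁻¹ ∈ 𝒪`.
`hR`: `u (σ • y) / algebraMap (σ κ) = φ σ • (u y / algebraMap κ)` (`hu`, `SemilinearAut.smul_algebraMap`, `base_eq`,
`smul_div'`/`map_div₀`), `smul_mem_gauss`.
`h`: `exists_fixed_normalized A N' (u y).2 _ (Dc A ⊓ MulAction.stabilizer GQ y)` (for `σ` in this group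
`gal σ (u y) = φ σ • u y = u (σ • y) = u y`) gives `κ, f, g`; `(u y / κ) * g = f` and `(u y / κ)⁻¹ * f = g`, so both are Gauss-integral
(`h𝒪.spec`; the coercion of `algebraMap Qb (FF Qb N') κ` is `HahnSeries.C κ`: `kummer_C_eq_algebraMap`, see `GR/S/R/Gauss.lean`).] -/
theorem hasNorm (h𝒪 : IsGaussRing A N' 𝒪) (hφ : IsGal φ) : HasNorm A 𝒪 φ := by
  intro Y _ _ u hu0 hu
  have hcoe : ∀ c : Qb, ((algebraMap Qb (FF Qb N') c : FF Qb N') : LaurentSeries Qb) =
      HahnSeries.C c := fun c => (kummer_C_eq_algebraMap c).symm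
  obtain ⟨κ, hκ1, hκ2⟩ := exists_equivariant' (Dc A) (Y := Y) (Z := Qb) (fun σ z => σ z)
    (fun _ => rfl) (fun _ _ _ => rfl)
    (fun y κ => κ ≠ 0 ∧ u y / algebraMap Qb (FF Qb N') κ ∈ 𝒪 ∧
      (u y / algebraMap Qb (FF Qb N') κ)⁻¹ ∈ 𝒪)
    (by
      rintro σ hσ y κ ⟨h0, h1, h2⟩
      have e : u (σ • y) / algebraMap Qb (FF Qb N') (σ κ) =
          φ σ • (u y / algebraMap Qb (FF Qb N') κ) := by
        rw [hu σ hσ y, ← base_eq hφ σ κ, ← SemilinearAut.smul_algebraMap, div_eq_mul_inv,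
          div_eq_mul_inv, smul_mul', smul_inv'']
      refine ⟨(map_ne_zero σ).2 h0, ?_, ?_⟩
      · rw [e]
        exact smul_mem_gauss h𝒪 hφ hσ h1
      · rw [e, ← smul_inv'']
        exact smul_mem_gauss h𝒪 hφ hσ h2)
    (by
      intro y
      have hu0' : ((u y : FF Qb N') : LaurentSeries Qb) ≠ 0 := fun h => hu0 y (Subtype.ext h)
      obtain ⟨κ, f, g, hκ, hf, hg, pf, pg, e, hfix⟩ :=
        exists_fixed_normalized A N' (u y).2 hu0' (Dc A ⊓ MulAction.stabilizer GQ y) (by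
          intro σ hσ
          obtain ⟨hσ1, hσ2⟩ := Subgroup.mem_inf.1 hσ
          rw [← hφ σ (u y), ← hu σ hσ1 y, MulAction.mem_stabilizer_iff.1 hσ2])
      have hC : (HahnSeries.C κ : LaurentSeries Qb) ≠ 0 := by
        rw [Ne, map_eq_zero]
        exact hκ
      have hf0 : f ≠ 0 := Gauss_isPrim_ne_zero A pf
      have hg0 : g ≠ 0 := Gauss_isPrim_ne_zero A pg
      refine ⟨κ, ⟨hκ, ?_, ?_⟩, fun σ hσ hy =>
        (hfix σ (Subgroup.mem_inf.2 ⟨hσ, MulAction.mem_stabilizer_iff.2 hy⟩)).1⟩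
      · rw [h𝒪.spec]
        refine ⟨f, g, hf, hg, pf.1, pg, ?_⟩
        rw [IntermediateField.coe_div, hcoe, div_mul_eq_mul_div, e]
        field_simp
      · rw [h𝒪.spec]
        refine ⟨g, f, hg, hf, pg.1, pf, ?_⟩
        rw [IntermediateField.coe_inv, IntermediateField.coe_div, hcoe]
        have e' : ((u y : FF Qb N') : LaurentSeries Qb) = HahnSeries.C κ * f / g := by
          rw [← e]
          field_simp
        rw [e']
        field_simp)
  exact ⟨κ, fun y => (hκ2 y).1, hκ1, fun y => (hκ2 y).2⟩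

end Fermat.Agent.S19.I
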