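import Fermat.Agent.S19.I.CDefs
import Fermat.Agent.GR.C.FixedRep

/-!
# S19-I : orbits of functions are finite and of finite level
-/

set_option autoImplicit false
set_option synthInstance.maxHeartbeats 400000

noncomputable section

namespace Fermat.Agent.S19.I

open AlgebraicCurve ModularCurve Fermat.Agent.GR Fermat.Agent.S17.FF Fermat.Agent.S19

variable {N' : ℕ} {φ : GQ →* SemilinearAut Qb (FF Qb N')}

/-- [`GR.C.exists_coeffField w.2` gives a number field `L₀` containing all coefficients of `w`.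
FINITE: `x ↦ (fun n => (x.1 : LaurentSeries Qb).coeff n)` is injective on `Orb φ w`, and its values lie in the range of
`(L₀ →ₐ[ℚ] Qb) → (ℤ → Qb)`, `τ ↦ fun n => τ ⟨w.coeff n, _⟩` (for `x = φ σ • w` take `τ = σ ∘ L₀.val`; `hφ`, `gal_coeff`), which is
finite (`Finite (L₀ →ₐ[ℚ] Qb)`, instance for finite-dimensional `L₀`).
LEVEL: `L := IntermediateField.normalClosure ℚ L₀ Qb` (finite-dimensional: `normalClosure.is_finiteDimensional`; normal), `L₀ ≤ L`
(`IntermediateField.le_normalClosure`).  For `τ : GQ`, `a ∈ L₀`: `τ a ∈ L` (normality: `IntermediateField.normal_iff_forall_map_le'`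
or `AlgHom.fieldRange_le_normalClosure`).  So `σ ∈ L.fixingSubgroup` fixes all coefficients of `φ τ • w`.] -/
theorem hasOrb (hφ : IsGal φ) : HasOrb φ := by
  intro w
  obtain ⟨L₀, hfd, hmem, -⟩ := Fermat.Agent.GR.C.exists_coeffField w.2
  have hcoeff : ∀ (σ : GQ) (x : FF Qb N') (n : ℤ),
      ((φ σ • x : FF Qb N') : LaurentSeries Qb).coeff n = σ ((x : LaurentSeries Qb).coeff n) := by
    intro σ x n
    rw [hφ σ x]
    rfl
  constructor
  · let Φ : (L₀ →ₐ[ℚ] Qb) → (ℤ → Qb) := fun τ n => τ ⟨(w : LaurentSeries Qb).coeff n, hmem n⟩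
    let Ψ : Orb φ w → (ℤ → Qb) := fun x n => (x.1 : LaurentSeries Qb).coeff n
    have hΨ : Function.Injective Ψ := by
      intro x y h
      apply Subtype.ext
      apply Subtype.ext
      exact HahnSeries.ext (funext fun n => congrFun h n)
    have hsub : Set.range Ψ ⊆ Set.range Φ := by
      rintro _ ⟨⟨x, σ, rfl⟩, rfl⟩
      refine ⟨(σ : Qb →ₐ[ℚ] Qb).comp L₀.val, ?_⟩
      funext n
      exact (hcoeff σ w n).symm
    have hfin : (Set.range Ψ).Finite := (Set.finite_range Φ).subset hsub
    have : Finite (Set.range Ψ) := hfin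
    exact Finite.of_injective_finite_range hΨ
  · refine ⟨IntermediateField.normalClosure ℚ L₀ Qb, inferInstance, ?_⟩
    rintro σ hσ ⟨x, τ, rfl⟩
    apply Subtype.ext
    apply Subtype.ext
    refine HahnSeries.ext (funext fun n => ?_)
    change ((φ σ • (φ τ • w) : FF Qb N') : LaurentSeries Qb).coeff n =
      ((φ τ • w : FF Qb N') : LaurentSeries Qb).coeff n
    rw [hcoeff σ, hcoeff τ]
    have hmemL : τ ((w : LaurentSeries Qb).coeff n) ∈ IntermediateField.normalClosure ℚ L₀ Qb := by
      apply AlgHom.fieldRange_le_normalClosure ((τ : Qb →ₐ[ℚ] Qb).comp L₀.val)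
      exact ⟨⟨(w : LaurentSeries Qb).coeff n, hmem n⟩, rfl⟩
    exact (IntermediateField.mem_fixingSubgroup_iff _ σ).1 hσ _ hmemL

end Fermat.Agent.S19.I
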