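import Fermat.Agent.S19.I.Main
import Fermat.Agent.S19.I.Norm
import Fermat.Agent.S19.I.Desc
import Fermat.Agent.S19.I.Orbit
import Fermat.Agent.S19.I.Bas
import Fermat.Agent.S19.ML.Dec
import Fermat.Agent.S19.ML.Move
import Fermat.Agent.GR.S.R.Main

/-!
# S19-I : export.  Reduction classes with the moving lemma (ML) and the integrality theorem (GEO-I)
-/

set_option autoImplicit false
set_option synthInstance.maxHeartbeats 400000

noncomputable section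

namespace Fermat.Agent.S19.I

open AlgebraicCurve ModularCurve Fermat.Agent.GR Fermat.Agent.S17.FF Fermat.Agent.S19
open Fermat.Agent.S19.W Fermat.Agent.GR.S Fermat.Agent.GR.S.R
open Fermat.Agent.GR.E hiding Qb

/-- the moving lemma for a map `r` on places. -/
def Moves {F : Type} [Field F] [Algebra Qb F] [IsFF Qb F] {S : Type} (r : Place Qb F → S) : Prop :=
  ∀ (D : Divisor Qb F) (T : Finset (Place Qb F)),
    ∃ f : F, f ≠ 0 ∧ ∀ P ∈ (D + divf (K := Qb) f).support, ∀ Z ∈ T, r P ≠ r Z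

/-- the integrality theorem for a map `r` on places. -/
def Integral {F : Type} [Field F] [Algebra Qb F] [IsFF Qb F] (A : ValuationSubring Qb)
    (φ : GQ →* SemilinearAut Qb F) {S : Type} (r : Place Qb F → S) : Prop :=
  ∀ (Y : Type) [Fintype Y] [MulAction GQ Y], FinLevel Y →
    ∀ (u : Y → F) (Dv : Y → Divisor Qb F), (∀ y, u y ≠ 0) →
    (∀ σ ∈ Dc A, ∀ y, u (σ • y) = φ σ • u y) →
    (∀ σ ∈ Dc A, ∀ y, Dv (σ • y) = φ σ • Dv y) →
    (∀ y, Divisor.degree (Dv y) = 0) →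
    ∀ (w : F), w ≠ 0 → ∀ (E : Divisor Qb F), Divisor.degree E = 0 →
    (∀ y, ∀ P ∈ E.support, ∀ Q, r Q = r P → Q.ord (u y) = 0) →
    (∀ y, ∀ P ∈ (Dv y).support, ∀ Q, r Q = r P → Q.ord w = 0) →
    (fun y => evalD (u y) E / evalD w (Dv y)) ∈ MD A Y

/-- **export of S19-I** at a level `N'` which has a model. -/
theorem exists_red (A : ValuationSubring Qb) (ℓ : ℕ) [hℓ : Fact ℓ.Prime] (hA : A.LiesOverPrime ℓ)
    (N' : ℕ) (H : LaurentSeries ℤ) (hM : HasModel A N' H) [IsFF Qb (FF Qb N')]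
    (φ : GQ →* SemilinearAut Qb (FF Qb N')) (hφ : IsGal φ) :
    ∃ (S : Type) (r : Place Qb (FF Qb N') → S), Moves r ∧ Integral A φ r := by
  obtain ⟨𝒪, h𝒪⟩ := exists_isGaussRing A N'
  have G : GaussData A 𝒪 := h𝒪.gaussData
  set h : FF Qb N' := ⟨baseFn Qb H, hM.mem Qb⟩ with hh
  obtain ⟨L0, L1⟩ := Main_levelChart A ℓ hℓ.out hA N' H hM
  have C0 : RChart A 𝒪 h := Main_rChart hℓ.out hA h𝒪 L0 hM.transc
  have C1 : RChart A 𝒪 h⁻¹ := Main_rChart hℓ.out hA h𝒪 L1 (BR7_transcendental_inv hM.transc)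
  have h0 : h ≠ 0 := by
    intro h0
    apply hM.transc
    rw [← hh, h0]
    exact isAlgebraic_zero
  refine ⟨Set (FF Qb N') ⊕ Set (FF Qb N'), R.red A h, ?_, ?_⟩
  · intro D T
    obtain ⟨f, hf0, hf⟩ := ML.exists_move G h0 C0 C1 T D
    exact ⟨f, hf0, fun P hP Z hZ hPZ => (Finsupp.mem_support_iff.1 hP) (hf P ⟨Z, hZ, hPZ⟩)⟩
  · have RD : RedData A 𝒪 (R.red A h) :=
      ⟨G, fun w hw => mapDomain_red_eq_zero G h0 C0 C1 hw⟩
    have Ac : ActData A 𝒪 (R.red A h) φ :=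
      ⟨base_eq hφ, fun σ hσ u hu => smul_mem_gauss h𝒪 hφ hσ hu, fun σ hσ P P' hPP =>
        (ML.red_smul_eq_iff (φ σ) (smul_baseFn H _ σ (φ σ) (hφ σ))
          (fun a => by rw [base_eq hφ]; exact mem_iff_of_mem_Dc hσ a) P P').2 hPP⟩
    intro Y _ _ hY u Dv hu0 hu hDv hdeg w hw0 E hE h1 h2
    exact main RD Ac (hasNorm h𝒪 hφ) (hasDesc h𝒪 hφ (fun Y _ _ hY => hasBasis hA hY)) (hasOrb hφ) hY
      u Dv hu0 hu hDv hdeg w hw0 E hE h1 h2

/-- the same for an intermediate field which is equal to `FF Qb N'`. -/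
theorem exists_red' (A : ValuationSubring Qb) (ℓ : ℕ) [Fact ℓ.Prime] (hA : A.LiesOverPrime ℓ)
    (N' : ℕ) (H : LaurentSeries ℤ) (hM : HasModel A N' H)
    (E : IntermediateField Qb (LaurentSeries Qb)) (hE : E = FF Qb N') [IsFF Qb E]
    (φ : GQ →* SemilinearAut Qb E)
    (hφ : ∀ (σ : GQ) (x : E), ((φ σ • x : E) : LaurentSeries Qb) = gal σ (x : LaurentSeries Qb)) :
    ∃ (S : Type) (r : Place Qb E → S), Moves r ∧ Integral A φ r := by
  subst hE
  exact exists_red A ℓ hA N' H hM φ hφ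

end Fermat.Agent.S19.I
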