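import Fermat.Agent.S19.I.CDefs
import Fermat.Agent.S19.H.Val
import Fermat.Agent.GR.S.R.Inert
import Fermat.Agent.GR.S.R.Gauss
import Fermat.Agent.GR.S.R.NU

/-!
# S19-I : the decomposition group preserves integrality
-/

set_option autoImplicit false
set_option synthInstance.maxHeartbeats 400000

noncomputable section

namespace Fermat.Agent.S19.I

open AlgebraicCurve ModularCurve Fermat.Agent.GR Fermat.Agent.S17.FF Fermat.Agent.S19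
open Fermat.Agent.GR.S.R
open Fermat.Agent.GR.E hiding Qb

variable {A : ValuationSubring Qb} {N' : ℕ} {𝒪 : ValuationSubring (FF Qb N')}
variable {φ : GQ →* SemilinearAut Qb (FF Qb N')}

/-- [`S19.mem_decompositionSubgroup_iff`.] -/
theorem mem_iff_of_mem_Dc {σ : GQ} (hσ : σ ∈ Dc A) (a : Qb) : σ a ∈ A ↔ a ∈ A :=
  (((S19.mem_decompositionSubgroup_iff A σ).1 hσ) a).symm

/-- [`a ∈ A.nonunits ↔ a = 0 ∨ a⁻¹ ∉ A` (`GR.S.R.nu_iff`), `map_inv₀`.] -/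
theorem mem_nonunits_iff_of_mem_Dc {σ : GQ} (hσ : σ ∈ Dc A) (a : Qb) :
    σ a ∈ A.nonunits ↔ a ∈ A.nonunits := by
  rw [nu_iff, nu_iff, ← map_inv₀, mem_iff_of_mem_Dc hσ, map_eq_zero]

theorem isInt_gal {σ : GQ} (hσ : σ ∈ Dc A) {f : LaurentSeries Qb} (hf : IsInt A f) :
    IsInt A (gal σ f) := by
  intro n
  rw [gal_coeff]
  exact (mem_iff_of_mem_Dc hσ _).2 (hf n)

theorem isPrim_gal {σ : GQ} (hσ : σ ∈ Dc A) {f : LaurentSeries Qb} (hf : IsPrim A f) :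
    IsPrim A (gal σ f) := by
  obtain ⟨h1, n, hn⟩ := hf
  refine ⟨isInt_gal hσ h1, n, ?_⟩
  rw [gal_coeff, mem_nonunits_iff_of_mem_Dc hσ]
  exact hn

/-- [`GR.E.coeffMap_mem_FF`; `gal σ = coeffMap σ` by definition.] -/
theorem gal_mem_FF (σ : GQ) {f : LaurentSeries Qb} (hf : f ∈ FF Qb N') : gal σ f ∈ FF Qb N' :=
  Fermat.Agent.GR.E.coeffMap_mem_FF _ N' hf

/-- [`GR.S.R.baseAut_eq_of_gal`.] -/
theorem base_eq (hφ : IsGal φ) (σ : GQ) (a : Qb) : SemilinearAut.baseAut (φ σ) a = σ a :=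
  baseAut_eq_of_gal σ (φ σ) (hφ σ) a

/-- [`h𝒪.spec`: `u * g = f` gives `gal σ u * gal σ g = gal σ f`.] -/
theorem smul_mem_gauss (h𝒪 : IsGaussRing A N' 𝒪) (hφ : IsGal φ) {σ : GQ} (hσ : σ ∈ Dc A)
    {u : FF Qb N'} (hu : u ∈ 𝒪) : φ σ • u ∈ 𝒪 := by
  rw [h𝒪.spec] at hu ⊢
  obtain ⟨f, g, hf, hg, hfi, hgp, e⟩ := hu
  refine ⟨gal σ f, gal σ g, gal_mem_FF σ hf, gal_mem_FF σ hg, isInt_gal hσ hfi,
    isPrim_gal hσ hgp, ?_⟩
  rw [hφ σ u, ← map_mul, e]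

theorem act_isPrim_one : IsPrim A (1 : LaurentSeries Qb) := by
  refine ⟨fun n => ?_, 0, ?_⟩
  · rw [HahnSeries.coeff_one]
    split_ifs
    · exact A.one_mem
    · exact A.zero_mem
  · rw [HahnSeries.coeff_one, if_pos rfl]
    exact one_not_nu

/-- a primitive function is a unit of the Gauss ring. -/
theorem mem_gauss_of_isInt (h𝒪 : IsGaussRing A N' 𝒪) {f : FF Qb N'}
    (hf : IsInt A (f : LaurentSeries Qb)) : f ∈ 𝒪 := by
  rw [h𝒪.spec]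
  refine ⟨f, 1, f.2, one_mem _, hf, act_isPrim_one, mul_one _⟩

theorem inv_mem_gauss_of_isPrim (h𝒪 : IsGaussRing A N' 𝒪) {f : FF Qb N'}
    (hf : IsPrim A (f : LaurentSeries Qb)) : f⁻¹ ∈ 𝒪 := by
  rw [h𝒪.spec]
  have hf0 : (f : LaurentSeries Qb) ≠ 0 := by
    intro h0
    obtain ⟨_, n, hn⟩ := hf
    rw [h0] at hn
    exact hn (by simp)
  refine ⟨1, f, one_mem _, f.2, act_isPrim_one.1, hf, ?_⟩
  have : ((f⁻¹ : FF Qb N') : LaurentSeries Qb) = (f : LaurentSeries Qb)⁻¹ := rfl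
  rw [this, inv_mul_cancel₀ hf0]

end Fermat.Agent.S19.I
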