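import Fermat.Agent.S19.I.Defs
import Fermat.Agent.GR.S.R.LDefs

/-!
# S19-I : the concrete situation `F = FF Qb N'`, definitions
-/

set_option autoImplicit false
set_option synthInstance.maxHeartbeats 400000

noncomputable section

namespace Fermat.Agent.S19.I

open AlgebraicCurve ModularCurve Fermat.Agent.GR Fermat.Agent.S19

/-- `φ` is the action of `GQ` on the coefficients of the `q`-expansions. -/
def IsGal {N' : ℕ} (φ : GQ →* SemilinearAut Qb (FF Qb N')) : Prop :=
  ∀ (σ : GQ) (x : FF Qb N'),
    ((φ σ • x : FF Qb N') : LaurentSeries Qb) = gal σ (x : LaurentSeries Qb)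

end Fermat.Agent.S19.I
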