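import Fermat.Agent.GR.S.R.AbsInert
import Fermat.Agent.S19.ML.Dec

/-!
# S19-I : (DEC) automorphisms preserving `A` and the coordinate permute the reduction classes
-/

set_option autoImplicit false

noncomputable section

namespace Fermat.Agent.S19.I

open AlgebraicCurve Fermat.Agent.GR.E Fermat.Agent.S17.FF Fermat.Agent.GR.S.R

variable {Ω F : Type} [Field Ω] [IsAlgClosed Ω] [CharZero Ω] [Field F] [Algebra Ω F] [IsFF Ω F]
variable {A : ValuationSubring Ω}

/-- [as in the proof of `GR.S.R.AbsInert_ker_smul`: `c ∈ chart ↔ g⁻¹ • c ∈ chart` (`smul_mem_chart` for `g` and `g⁻¹`),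
`val (g • P) c = baseAut g (val P (g⁻¹ • c))` (`GR.S.R.val_smul`, `smul_inv_smul`), `AbsInert_base_mem_nonunits_iff`.] -/
theorem ker_smul_eq (g : SemilinearAut Ω F) {x : F} (hgx : g • x = x)
    (hgA : ∀ a : Ω, SemilinearAut.baseAut g a ∈ A ↔ a ∈ A) (P : Place Ω F) :
    ker A x (g • P) = {c | g⁻¹ • c ∈ ker A x P} := by
  ext c
  have h1 := Fermat.Agent.S19.ML.mem_ker_smul_iff g hgx hgA P (g⁻¹ • c)
  rw [smul_inv_smul] at h1
  rw [Set.mem_setOf_eq, h1]

/-- (DEC).  [unfold `red`; `AbsInert_dom_smul_iff`; `ker_smul_eq` for `x = h` and `x = h⁻¹` (`smul_inv''`).] -/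
theorem red_smul_congr {h : F} (g : SemilinearAut Ω F) (hgh : g • h = h)
    (hgA : ∀ a : Ω, SemilinearAut.baseAut g a ∈ A ↔ a ∈ A) {P P' : Place Ω F}
    (hPP : red A h P = red A h P') : red A h (g • P) = red A h (g • P') :=
  (Fermat.Agent.S19.ML.red_smul_eq_iff g hgh hgA P P').2 hPP

end Fermat.Agent.S19.I
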