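import Fermat.Agent.S19.H.Defs
import Fermat.Agent.S19.W.Defs
import Fermat.Agent.GR.S.R.Defs
import Fermat.Agent.S17.FF.Semi

/-!
# S19-I : integrality of the Weil pairing, definitions

`Qb = ℚ̄`, `GQ = Gal(ℚ̄/ℚ)`, `A` a valuation subring of `Qb`, `Dc A` its decomposition group,
`F / Qb` a function field of one variable on which `GQ` acts semilinearly through `φ`,
`𝒪` the Gauss valuation subring of `F`, `r : Place Qb F → S` the reduction of points.

The abstract part (`MD`, `EV`, `Ia`, `Poly`, `Ib`, `Main`) proves: for a `Dc A`-equivariant family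
`(u y, Dv y)` and `(w, E)` whose supports have disjoint reductions,
`y ↦ u_y(E) / w(D_y)` lies in `MD A Y`.
-/

set_option autoImplicit false

noncomputable section

namespace Fermat.Agent.S19.I

open AlgebraicCurve Fermat.Agent.S17.FF Fermat.Agent.S19

/-- the decomposition group of `A`. -/
abbrev Dc (A : ValuationSubring Qb) : Subgroup GQ := A.decompositionSubgroup ℚ

variable {F : Type} [Field F] [Algebra Qb F]

/-- what the abstract part needs from the reduction map. -/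
structure RedData [IsFF Qb F] (A : ValuationSubring Qb) (𝒪 : ValuationSubring F) {S : Type}
    (r : Place Qb F → S) : Prop where
  gauss : GR.S.R.GaussData A 𝒪
  cong : ∀ w : F, w - 1 ∈ 𝒪.nonunits → (divf (K := Qb) w).mapDomain r = 0

/-- what the abstract part needs from the Galois action. -/
structure ActData (A : ValuationSubring Qb) (𝒪 : ValuationSubring F) {S : Type}
    (r : Place Qb F → S) (φ : GQ →* SemilinearAut Qb F) : Prop where
  base : ∀ (σ : GQ) (a : Qb), SemilinearAut.baseAut (φ σ) a = σ a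
  mem : ∀ σ ∈ Dc A, ∀ u ∈ 𝒪, φ σ • u ∈ 𝒪
  dec : ∀ σ ∈ Dc A, ∀ P P' : Place Qb F, r P = r P' → r (φ σ • P) = r (φ σ • P')

/-- equivariant Gauss normalisation of an equivariant family of functions. -/
def HasNorm (A : ValuationSubring Qb) (𝒪 : ValuationSubring F) (φ : GQ →* SemilinearAut Qb F) :
    Prop :=
  ∀ (Y : Type) [Fintype Y] [MulAction GQ Y] (u : Y → F), (∀ y, u y ≠ 0) →
    (∀ σ ∈ Dc A, ∀ y, u (σ • y) = φ σ • u y) →
    ∃ κ : Y → Qb, (∀ y, κ y ≠ 0) ∧ (∀ σ ∈ Dc A, ∀ y, κ (σ • y) = σ (κ y)) ∧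
      ∀ y, u y / algebraMap Qb F (κ y) ∈ 𝒪 ∧ (u y / algebraMap Qb F (κ y))⁻¹ ∈ 𝒪

/-- an equivariant family of Gauss-integral functions is a combination, with integral equivariant
coefficients, of invariant Gauss-integral functions. -/
def HasDesc (A : ValuationSubring Qb) (𝒪 : ValuationSubring F) (φ : GQ →* SemilinearAut Qb F) :
    Prop :=
  ∀ (Y : Type) [Fintype Y] [MulAction GQ Y], FinLevel Y → ∀ u : Y → F, (∀ y, u y ∈ 𝒪) →
    (∀ σ ∈ Dc A, ∀ y, u (σ • y) = φ σ • u y) →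
    ∃ (ι : Type) (_ : Fintype ι) (a : ι → Y → Qb) (f : ι → F),
      (∀ i, a i ∈ ED A (Dc A) Y) ∧ (∀ i, f i ∈ 𝒪) ∧ (∀ i, ∀ σ ∈ Dc A, φ σ • f i = f i) ∧
      (∀ i, f i ∈ Submodule.span Qb (Set.range u)) ∧ ∀ y, u y = ∑ i, a i y • f i

/-- the same for one function. -/
def HasDesc1 (A : ValuationSubring Qb) (𝒪 : ValuationSubring F) (φ : GQ →* SemilinearAut Qb F) :
    Prop :=
  ∀ w ∈ 𝒪, ∃ (ι : Type) (_ : Fintype ι) (β : ι → Qb) (g : ι → F),
    (∀ i, β i ∈ A) ∧ (∀ i, g i ∈ 𝒪) ∧ (∀ i, ∀ σ ∈ Dc A, φ σ • g i = g i) ∧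
    (∀ i, g i ∈ Submodule.span Qb {x : F | ∃ σ ∈ Dc A, x = φ σ • w}) ∧ w = ∑ i, β i • g i

/-- the `GQ`-orbit of a function, as a `GQ`-set. -/
def Orb (φ : GQ →* SemilinearAut Qb F) (w : F) : Type := {x : F // ∃ σ : GQ, φ σ • w = x}

instance (φ : GQ →* SemilinearAut Qb F) (w : F) : MulAction GQ (Orb φ w) where
  smul σ x := ⟨φ σ • x.1, by
    obtain ⟨τ, hτ⟩ := x.2
    exact ⟨σ * τ, by rw [map_mul, mul_smul, hτ]⟩⟩
  one_smul x := Subtype.ext (by
    show φ 1 • x.1 = x.1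
    rw [map_one, one_smul])
  mul_smul σ τ x := Subtype.ext (by
    show φ (σ * τ) • x.1 = φ σ • (φ τ • x.1)
    rw [map_mul, mul_smul])

theorem Orb.coe_smul (φ : GQ →* SemilinearAut Qb F) (w : F) (σ : GQ) (x : Orb φ w) :
    (σ • x).1 = φ σ • x.1 := rfl

/-- the base point of the orbit. -/
def Orb.base (φ : GQ →* SemilinearAut Qb F) (w : F) : Orb φ w := ⟨w, 1, by rw [map_one, one_smul]⟩

/-- orbits of functions are finite and of finite level. -/
def HasOrb (φ : GQ →* SemilinearAut Qb F) : Prop :=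
  ∀ w : F, Finite (Orb φ w) ∧ FinLevel (Orb φ w)

/-- an integral basis of the equivariant functions. -/
def HasBasis (A : ValuationSubring Qb) (Y : Type) [Fintype Y] [MulAction GQ Y] : Prop :=
  ∃ a : Y → (Y → Qb), (∀ i, a i ∈ ED A (Dc A) Y) ∧ LinearIndependent Qb a ∧
    ∀ f ∈ ED A (Dc A) Y, ∃ c : Y → Qb, (∀ i, c i ∈ A) ∧ f = ∑ i, c i • a i

end Fermat.Agent.S19.I
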