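import Fermat.Agent.S19.I.Act
import Fermat.Agent.S19.I.Fix
import Fermat.Agent.S19.I.EqChoice

/-!
# S19-I : an invariant primitive common denominator of an equivariant family
-/

set_option autoImplicit false
set_option synthInstance.maxHeartbeats 400000

noncomputable section

namespace Fermat.Agent.S19.I

open AlgebraicCurve ModularCurve Fermat.Agent.GR Fermat.Agent.S17.FF Fermat.Agent.S19
open Fermat.Agent.GR.S.R
open Fermat.Agent.GR.E hiding Qb

variable {A : ValuationSubring Qb} {N' : ℕ} [IsFF Qb (FF Qb N')] {𝒪 : ValuationSubring (FF Qb N')}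
variable {φ : GQ →* SemilinearAut Qb (FF Qb N')}

/-- (DEN).  [Step 1: an equivariant family `γ : Y → FF Qb N'` with `IsPrim A (γ y)`, `IsInt A (γ y * u y)`:
`exists_equivariant' (Dc A)` with `Z := FF Qb N'`, `act σ z := φ σ • z`, `R y z := IsPrim A z ∧ IsInt A (z * u y)`.
`hR`: `isPrim_gal`, `isInt_gal`, `hφ`, `hu`, `smul_mul'`.  `h`: if `u y = 0` take `z = 1`.  Otherwise
`exists_fixed_normalized A N' (u y).2 _ (Dc A ⊓ MulAction.stabilizer GQ y)` gives `κ, f, g` with `u y * g = C κ * f`; `z := ⟨g, _⟩`;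
`κ ∈ A`: `algebraMap κ = u y * g * f⁻¹ ∈ 𝒪` (`mem_gauss_of_isInt`, `inv_mem_gauss_of_isPrim`) and `h𝒪.gaussData.const_mem`; so
`C κ * f` is integral (`Gauss_isInt_C_mul`).
Step 2: `g := ∏ y, γ y`: primitive (`Gauss_isPrim_mul`, `Gauss_isPrim_one`, induction), invariant (`smul_prod'`/`map_prod` and
`Equiv.prod_comp (MulAction.toPerm σ)`), `g * u y = (∏_{y' ≠ y} γ y') * (γ y * u y)` integral (`Gauss_isInt_mul`;
`Finset.mul_prod_erase`).] -/
theorem exists_den (h𝒪 : IsGaussRing A N' 𝒪) (hφ : IsGal φ) {Y : Type} [Fintype Y]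
    [MulAction GQ Y] (u : Y → FF Qb N') (hu𝒪 : ∀ y, u y ∈ 𝒪)
    (hu : ∀ σ ∈ Dc A, ∀ y, u (σ • y) = φ σ • u y) :
    ∃ g : FF Qb N', IsPrim A (g : LaurentSeries Qb) ∧ (∀ σ ∈ Dc A, φ σ • g = g) ∧
      ∀ y, IsInt A ((g * u y : FF Qb N') : LaurentSeries Qb) := by
  classical
  have hcoeC : ∀ c : Qb, ((algebraMap Qb (FF Qb N') c : FF Qb N') : LaurentSeries Qb) =
      HahnSeries.C c := fun c => (kummer_C_eq_algebraMap c).symm
  obtain ⟨γ, hγeq, hγ⟩ := exists_equivariant' (Dc A) (Y := Y) (Z := FF Qb N')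
    (fun σ z => φ σ • z)
    (fun z => by rw [map_one, one_smul]) (fun σ τ z => by rw [map_mul, mul_smul])
    (fun y z => IsPrim A (z : LaurentSeries Qb) ∧
      IsInt A ((z * u y : FF Qb N') : LaurentSeries Qb))
    (by
      rintro σ hσ y z ⟨h1, h2⟩
      refine ⟨?_, ?_⟩
      · rw [hφ]
        exact isPrim_gal hσ h1
      · rw [hu σ hσ y, ← smul_mul', hφ]
        exact isInt_gal hσ h2)
    (by
      intro y
      by_cases h0 : u y = 0
      · refine ⟨1, ⟨act_isPrim_one, ?_⟩, fun σ _ _ => smul_one _⟩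
        rw [h0, mul_zero]
        exact Gauss_isInt_zero A
      · have h0' : (u y : LaurentSeries Qb) ≠ 0 := fun h => h0 (Subtype.ext h)
        obtain ⟨κ, f, g, hκ, hf, hg, pf, pg, e, hfix⟩ := exists_fixed_normalized A N' (u y).2 h0'
          (Dc A ⊓ MulAction.stabilizer GQ y) (by
            rintro σ ⟨hσ, hσy⟩
            have hσy' : σ • y = y := hσy
            rw [← hφ σ (u y), ← hu σ hσ y, hσy'])
        have hf0 : f ≠ 0 := Gauss_isPrim_ne_zero A pf
        have hκA : κ ∈ A := by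
          rw [← h𝒪.gaussData.const_mem]
          have e2 : algebraMap Qb (FF Qb N') κ =
              u y * (⟨g, hg⟩ : FF Qb N') * (⟨f, hf⟩ : FF Qb N')⁻¹ := by
            apply Subtype.ext
            rw [hcoeC]
            show HahnSeries.C κ = (u y : LaurentSeries Qb) * g * f⁻¹
            rw [e, mul_assoc, mul_inv_cancel₀ hf0, mul_one]
          rw [e2]
          exact 𝒪.mul_mem _ _ (𝒪.mul_mem _ _ (hu𝒪 y)
            (mem_gauss_of_isInt h𝒪 (f := ⟨g, hg⟩) pg.1))
            (inv_mem_gauss_of_isPrim h𝒪 (f := ⟨f, hf⟩) pf)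
        refine ⟨⟨g, hg⟩, ⟨pg, ?_⟩, ?_⟩
        · show IsInt A (g * (u y : LaurentSeries Qb))
          rw [mul_comm, e]
          exact Gauss_isInt_C_mul A hκA pf.1
        · intro σ hσ hy
          apply Subtype.ext
          rw [hφ]
          exact (hfix σ ⟨hσ, hy⟩).2.2)
  refine ⟨∏ y, γ y, ?_, ?_, ?_⟩
  · exact Finset.prod_induction γ (fun z : FF Qb N' => IsPrim A (z : LaurentSeries Qb))
      (fun a b ha hb => Gauss_isPrim_mul A ha hb) (Gauss_isPrim_one A) (fun y _ => (hγ y).1)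
  · intro σ hσ
    rw [Finset.smul_prod']
    have h1 : ∀ y, φ σ • γ y = γ (σ • y) := fun y => (hγeq σ hσ y).symm
    simp only [h1]
    exact Equiv.prod_comp (MulAction.toPerm σ) γ
  · intro y
    rw [← Finset.mul_prod_erase Finset.univ γ (Finset.mem_univ y)]
    have e3 : (γ y * ∏ x ∈ Finset.univ.erase y, γ x) * u y =
        (∏ x ∈ Finset.univ.erase y, γ x) * (γ y * u y) := by ring
    rw [e3]
    have h2 : IsInt A ((∏ x ∈ Finset.univ.erase y, γ x : FF Qb N') : LaurentSeries Qb) :=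
      (Finset.prod_induction γ (fun z : FF Qb N' => IsPrim A (z : LaurentSeries Qb))
        (fun a b ha hb => Gauss_isPrim_mul A ha hb) (Gauss_isPrim_one A)
        (fun y _ => (hγ y).1)).1
    exact Gauss_isInt_mul A h2 (hγ y).2

end Fermat.Agent.S19.I
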