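import Fermat.Agent.S19.I.Defs

/-!
# S19-I : descent for one function, from descent for families (applied to the orbit)
-/

set_option autoImplicit false

noncomputable section

namespace Fermat.Agent.S19.I

open AlgebraicCurve Fermat.Agent.S17.FF Fermat.Agent.S19

variable {F : Type} [Field F] [Algebra Qb F]
variable {A : ValuationSubring Qb} {𝒪 : ValuationSubring F} {S : Type} {r : Place Qb F → S}
variable {φ : GQ →* SemilinearAut Qb F}

/-- [`Y := Orb φ w` (finite, of finite level by `hO w`; `Fintype.ofFinite`).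
`v x := if ∃ σ ∈ Dc A, x.1 = φ σ • w then x.1 else 0` (classical).  It has values in `𝒪` (`Ac.mem`),
it is `Dc A`-equivariant (`Orb.coe_smul`; the condition is stable under `Dc A` and its inverses;
`smul_zero`), `v (Orb.base φ w) = w`, and `range v ⊆ {φ σ • w} ∪ {0}`.  Apply `hD`;
`β i := a i (Orb.base φ w)`, `g := f`; `Submodule.span_le` for the span.] -/
theorem hasDesc1 (Ac : ActData A 𝒪 r φ) (hD : HasDesc A 𝒪 φ) (hO : HasOrb φ) :
    HasDesc1 A 𝒪 φ := by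
  classical
  intro w hw
  obtain ⟨hfin, hlev⟩ := hO w
  let _ : Fintype (Orb φ w) := Fintype.ofFinite _
  let v : Orb φ w → F := fun x => if ∃ σ ∈ Dc A, x.1 = φ σ • w then x.1 else 0
  have hv1 : ∀ x : Orb φ w, (∃ σ ∈ Dc A, x.1 = φ σ • w) → v x = x.1 := fun x h => if_pos h
  have hv0 : ∀ x : Orb φ w, (¬ ∃ σ ∈ Dc A, x.1 = φ σ • w) → v x = 0 := fun x h => if_neg h
  have hv𝒪 : ∀ x, v x ∈ 𝒪 := by
    intro x
    by_cases h : ∃ σ ∈ Dc A, x.1 = φ σ • w
    · rw [hv1 x h]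
      obtain ⟨σ, hσ, hx⟩ := h
      rw [hx]
      exact Ac.mem σ hσ w hw
    · rw [hv0 x h]
      exact 𝒪.zero_mem
  have hveq : ∀ σ ∈ Dc A, ∀ y, v (σ • y) = φ σ • v y := by
    intro σ hσ y
    by_cases h : ∃ τ ∈ Dc A, y.1 = φ τ • w
    · have h' : ∃ τ ∈ Dc A, (σ • y).1 = φ τ • w := by
        obtain ⟨τ, hτ, hy⟩ := h
        exact ⟨σ * τ, (Dc A).mul_mem hσ hτ, by rw [Orb.coe_smul, hy, map_mul, mul_smul]⟩
      rw [hv1 _ h', hv1 _ h, Orb.coe_smul]
    · have h' : ¬ ∃ τ ∈ Dc A, (σ • y).1 = φ τ • w := by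
        rintro ⟨τ, hτ, hy⟩
        refine h ⟨σ⁻¹ * τ, (Dc A).mul_mem ((Dc A).inv_mem hσ) hτ, ?_⟩
        rw [map_mul, mul_smul, ← hy, Orb.coe_smul, map_inv, inv_smul_smul]
      rw [hv0 _ h', hv0 _ h, smul_zero]
  obtain ⟨ι, hι, a, f, ha, hf, hinv, hspan, hsum⟩ := hD (Orb φ w) hlev v hv𝒪 hveq
  refine ⟨ι, hι, fun i => a i (Orb.base φ w), f, fun i => (ha i).1 _, hf, hinv, fun i => ?_, ?_⟩
  · refine (Submodule.span_le.2 ?_) (hspan i)
    rintro _ ⟨x, rfl⟩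
    by_cases h : ∃ σ ∈ Dc A, x.1 = φ σ • w
    · rw [hv1 x h]
      exact Submodule.subset_span h
    · rw [hv0 x h]
      exact Submodule.zero_mem _
  · have hb : v (Orb.base φ w) = w :=
      hv1 _ ⟨1, (Dc A).one_mem, by rw [map_one, one_smul]; rfl⟩
    rw [← hsum, hb]

end Fermat.Agent.S19.I
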