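import Fermat.Agent.S19.I.Defs
import Fermat.Agent.GR.S.R.Cnt
import Fermat.Agent.GR.S.R.NU
import Fermat.Agent.GR.S.R.Dom

/-!
# S19-I : values of Gauss-integral functions at points away from the reduction of the poles
-/

set_option autoImplicit false

noncomputable section

namespace Fermat.Agent.S19.I

open AlgebraicCurve Fermat.Agent.S17.FF Fermat.Agent.S19

variable {F : Type} [Field F] [Algebra Qb F] [IsFF Qb F]
variable {A : ValuationSubring Qb} {𝒪 : ValuationSubring F} {S : Type} {r : Place Qb F → S}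

/-- (EV).  [Let `c = val P f` and suppose `c ∉ A`; then `c ≠ 0`, `c⁻¹ ∈ A.nonunits`
(`GR.S.R.inv_nu_of_not_mem`), so `algebraMap c⁻¹ ∈ 𝒪.nonunits`
(`GR.S.R.algebraMap_mem_nonunits_iff R.gauss`).  `w := 1 - algebraMap c⁻¹ * f`:
`w - 1 ∈ 𝒪.nonunits` (`nu_neg`, `nu_mul_right`), so `(divf w).mapDomain r = 0` by `R.cong`; evaluate
at `r P` with `GR.S.R.mapDomain_divf_apply`: `cnt {Q | r Q = r P} w = 0`.  But `0 ≤ Q.ord w` for all
`Q` in the class (`w` is in the valuation ring of `Q`) and `0 < P.ord w` because `val P w = 1 - c⁻¹ c = 0`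
(`val_add`, `val_mul`, `val_algebraMap`, `val_eq_zero_iff`; `w ≠ 0` because `w - 1` is a non-unit):
`GR.S.R.cnt_pos_of_exists` gives a contradiction.] -/
theorem val_mem (R : RedData A 𝒪 r) {f : F} (hf : f ∈ 𝒪) {P : Place Qb F}
    (hP : ∀ Q, r Q = r P → 0 ≤ Q.ord f) : val P f ∈ A := by
  by_contra hc
  set c : Qb := val P f with hcdef
  have hc0 : c ≠ 0 := fun h => hc (h ▸ zero_mem A)
  have hci : c⁻¹ ∈ A.nonunits := GR.S.R.inv_nu_of_not_mem hc
  have hci' : algebraMap Qb F c⁻¹ ∈ 𝒪.nonunits :=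
    (GR.S.R.algebraMap_mem_nonunits_iff R.gauss _).2 hci
  set w : F := 1 - algebraMap Qb F c⁻¹ * f with hw
  have hw1 : w - 1 ∈ 𝒪.nonunits := by
    have h1 : w - 1 = -(algebraMap Qb F c⁻¹ * f) := by rw [hw]; ring
    rw [h1]
    exact GR.S.R.nu_neg (GR.S.R.nu_mul_right hci' hf)
  have hw0 : w ≠ 0 := by
    intro h0
    rw [h0, zero_sub] at hw1
    have := GR.S.R.nu_neg hw1
    rw [neg_neg] at this
    exact GR.S.R.one_not_nu this
  have hcnt : GR.S.R.cnt {Q | r Q = r P} w = 0 := by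
    rw [← GR.S.R.mapDomain_divf_apply, R.cong w hw1, Finsupp.zero_apply]
  have hmul : ∀ Q : Place Qb F, 0 ≤ Q.ord f → 0 ≤ Q.ord (algebraMap Qb F (-c⁻¹) * f) := by
    intro Q hQ
    rw [← Fermat.Agent.S24.Zeros.mem_iff_ord_nonneg'] at hQ ⊢
    exact mul_mem (Q.algebraMap_mem' _) hQ
  have hweq : w = algebraMap Qb F 1 + algebraMap Qb F (-c⁻¹) * f := by
    rw [hw, map_one, map_neg]
    ring
  have hord : ∀ Q ∈ {Q : Place Qb F | r Q = r P}, 0 ≤ Q.ord w := by
    intro Q hQ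
    have h1 := hmul Q (hP Q hQ)
    rw [← Fermat.Agent.S24.Zeros.mem_iff_ord_nonneg'] at h1 ⊢
    rw [hweq]
    exact add_mem (Q.algebraMap_mem' _) h1
  have hPf : 0 ≤ P.ord f := hP P rfl
  have hval : val P w = 0 := by
    rw [hweq, val_add P (by rw [Fermat.Agent.S24.Zeros.ord_algebraMap]) (hmul P hPf),
      val_mul P (by rw [Fermat.Agent.S24.Zeros.ord_algebraMap]) hPf, val_algebraMap, val_algebraMap,
      ← hcdef]
    field_simp
    ring
  have hpos : 0 < P.ord w :=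
    ((val_eq_zero_iff P (hord P rfl)).1 hval).resolve_left hw0
  have := GR.S.R.cnt_pos_of_exists {Q | r Q = r P} w hord (P := P) rfl hpos
  omega

/-- [`val_mem` for `f` and `f⁻¹`; `val P f * val P f⁻¹ = val P 1 = 1` (`val_mul`).] -/
theorem val_unit (R : RedData A 𝒪 r) {f : F} (h0 : f ≠ 0) (hf : f ∈ 𝒪) (hf' : f⁻¹ ∈ 𝒪)
    {P : Place Qb F} (hP : ∀ Q, r Q = r P → Q.ord f = 0) :
    val P f ∈ A ∧ val P f ≠ 0 ∧ (val P f)⁻¹ ∈ A := by
  have h1 : val P f ∈ A := val_mem R hf fun Q hQ => (hP Q hQ).ge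
  have h2 : val P f⁻¹ ∈ A := val_mem R hf' fun Q hQ => by rw [Q.ord_inv, hP Q hQ, neg_zero]
  have h3 : val P f * val P f⁻¹ = 1 := by
    rw [← val_mul P (hP P rfl).ge (by rw [P.ord_inv, hP P rfl, neg_zero]), mul_inv_cancel₀ h0,
      ← map_one (algebraMap Qb F), val_algebraMap]
  have h4 : val P f ≠ 0 := left_ne_zero_of_mul_eq_one h3
  refine ⟨h1, h4, ?_⟩
  rw [← eq_inv_of_mul_eq_one_right h3]
  exact h2

/-- a `Qb`-combination of functions without pole at `Q` has no pole at `Q`. -/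
theorem ord_nonneg_of_mem_span {s : Set F} {Q : Place Qb F} (hs : ∀ x ∈ s, 0 ≤ Q.ord x) {f : F}
    (hf : f ∈ Submodule.span Qb s) : 0 ≤ Q.ord f := by
  rw [← Fermat.Agent.S24.Zeros.mem_iff_ord_nonneg']
  induction hf using Submodule.span_induction with
  | mem x hx => exact (Fermat.Agent.S24.Zeros.mem_iff_ord_nonneg' Q x).2 (hs x hx)
  | zero => exact zero_mem _
  | add x y _ _ hx hy => exact add_mem hx hy
  | smul a x _ hx =>
    rw [Algebra.smul_def]
    exact mul_mem (Q.algebraMap_mem' _) hx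

/-- `val P` is linear on the functions without pole at `P`. -/
theorem val_sum_smul {ι : Type} (s : Finset ι) (c : ι → Qb) (f : ι → F) (P : Place Qb F)
    (hf : ∀ i ∈ s, 0 ≤ P.ord (f i)) :
    0 ≤ P.ord (∑ i ∈ s, c i • f i) ∧ val P (∑ i ∈ s, c i • f i) = ∑ i ∈ s, c i * val P (f i) := by
  classical
  have hterm : ∀ i ∈ s, 0 ≤ P.ord (c i • f i) := by
    intro i hi
    have h1 := hf i hi
    rw [← Fermat.Agent.S24.Zeros.mem_iff_ord_nonneg'] at h1 ⊢
    rw [Algebra.smul_def]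
    exact mul_mem (P.algebraMap_mem' _) h1
  induction s using Finset.induction_on with
  | empty =>
    rw [Finset.sum_empty, Finset.sum_empty, ← map_zero (algebraMap Qb F), val_algebraMap,
      Fermat.Agent.S24.Zeros.ord_algebraMap]
    exact ⟨le_rfl, rfl⟩
  | insert a s ha ih =>
    obtain ⟨ih1, ih2⟩ := ih (fun i hi => hf i (Finset.mem_insert_of_mem hi))
      (fun i hi => hterm i (Finset.mem_insert_of_mem hi))
    have hta := hterm a (Finset.mem_insert_self a s)
    rw [Finset.sum_insert ha, Finset.sum_insert ha]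
    constructor
    · rw [← Fermat.Agent.S24.Zeros.mem_iff_ord_nonneg'] at hta ih1 ⊢
      exact add_mem hta ih1
    · rw [val_add P hta ih1, ih2, Algebra.smul_def,
        val_mul P (by rw [Fermat.Agent.S24.Zeros.ord_algebraMap])
          (hf a (Finset.mem_insert_self a s)), val_algebraMap]

end Fermat.Agent.S19.I
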