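import Fermat.Agent.S19.I.MD
import Fermat.Agent.S19.I.EV

/-!
# S19-I : (Ia) `y ↦ u_y(P)` is a unit of `MD A Y`
-/

set_option autoImplicit false

noncomputable section

namespace Fermat.Agent.S19.I

open AlgebraicCurve Fermat.Agent.S17.FF Fermat.Agent.S19

variable {F : Type} [Field F] [Algebra Qb F] [IsFF Qb F]
variable {A : ValuationSubring Qb} {𝒪 : ValuationSubring F} {S : Type} {r : Place Qb F → S}
variable {φ : GQ →* SemilinearAut Qb F}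

/-- (Ia).  [`hD Y hY u` gives `u y = ∑ i, a i y • f i`, `a i ∈ ED`, `f i ∈ 𝒪`,
`f i ∈ span (range u)`.  For `Q` with `r Q = r P`: `0 ≤ Q.ord (f i)` (`ord_nonneg_of_mem_span`, `hP`),
so `val P (f i) ∈ A` (`val_mem`), and `val P (u y) = ∑ i, a i y * val P (f i)` (`val_sum_smul`), i.e.
`(fun y => val P (u y)) = ∑ i, val P (f i) • a i ∈ MD A Y`.  Unit values: `val_unit`.] -/
theorem Ia (R : RedData A 𝒪 r) (hD : HasDesc A 𝒪 φ) {Y : Type} [Fintype Y] [MulAction GQ Y]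
    (hY : FinLevel Y) (u : Y → F) (hu0 : ∀ y, u y ≠ 0) (hu𝒪 : ∀ y, u y ∈ 𝒪 ∧ (u y)⁻¹ ∈ 𝒪)
    (hu : ∀ σ ∈ Dc A, ∀ y, u (σ • y) = φ σ • u y) (P : Place Qb F)
    (hP : ∀ y Q, r Q = r P → Q.ord (u y) = 0) :
    (fun y => val P (u y)) ∈ MD A Y ∧ ∀ y, val P (u y) ≠ 0 ∧ (val P (u y))⁻¹ ∈ A := by
  obtain ⟨ι, _, a, f, ha, hf𝒪, -, hfspan, hsum⟩ := hD Y hY u (fun y => (hu𝒪 y).1) hu
  have hord : ∀ i Q, r Q = r P → 0 ≤ Q.ord (f i) := by
    intro i Q hQ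
    refine ord_nonneg_of_mem_span (s := Set.range u) ?_ (hfspan i)
    rintro _ ⟨y, rfl⟩
    rw [hP y Q hQ]
  have hval : ∀ i, val P (f i) ∈ A := fun i => val_mem R (hf𝒪 i) (hord i)
  refine ⟨?_, fun y => (val_unit R (hu0 y) (hu𝒪 y).1 (hu𝒪 y).2 (fun Q hQ => hP y Q hQ)).2⟩
  have e : (fun y => val P (u y)) = ∑ i, val P (f i) • a i := by
    funext y
    rw [hsum y, (val_sum_smul Finset.univ (fun i => a i y) f P (fun i _ => hord i P rfl)).2,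
      Finset.sum_apply]
    refine Finset.sum_congr rfl fun i _ => ?_
    rw [Pi.smul_apply, smul_eq_mul, mul_comm]
  rw [e]
  exact Submodule.sum_mem _ fun i _ => smul_mem_MD (hval i) (mem_MD_of_mem_ED (ha i))

end Fermat.Agent.S19.I
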