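import Fermat.Agent.S19.I.IbEff

/-!
# S19-I : (Ib) `y ↦ w(D_y)` is a unit of `MD A Y`
-/

set_option autoImplicit false

noncomputable section

namespace Fermat.Agent.S19.I

open AlgebraicCurve Fermat.Agent.S17.FF Fermat.Agent.S19 Fermat.Agent.S19.W

variable {F : Type} [Field F] [Algebra Qb F] [IsFF Qb F]
variable {A : ValuationSubring Qb} {𝒪 : ValuationSubring F} {S : Type} {r : Place Qb F → S}
variable {φ : GQ →* SemilinearAut Qb F}

omit [IsFF Qb F] in
theorem Ib_toNat_smul (g : SemilinearAut Qb F) (D : Divisor Qb F) :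
    (g • D).mapRange Int.toNat rfl = (D.mapRange Int.toNat rfl).mapDomain (fun P => g • P) := by
  ext Q
  obtain ⟨P, rfl⟩ := MulAction.surjective g Q
  rw [Finsupp.mapRange_apply, SemilinearAut.divisor_smul_apply_smul,
    Finsupp.mapDomain_apply (MulAction.injective g), Finsupp.mapRange_apply]

theorem Ib_zpow_split (x : Qb) (n : ℤ) :
    x ^ n = x ^ n.toNat * (x⁻¹) ^ (-n).toNat := by
  obtain ⟨m, rfl | rfl⟩ := n.eq_nat_or_neg
  · have h1 : (-(m : ℤ)).toNat = 0 := by omega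
    rw [h1, pow_zero, mul_one, Int.toNat_natCast, zpow_natCast]
  · have h1 : (-(m : ℤ)).toNat = 0 := by omega
    rw [h1, pow_zero, one_mul, neg_neg, Int.toNat_natCast, zpow_neg, zpow_natCast, inv_pow]

theorem Ib_evalD_split (w : F) (hw0 : w ≠ 0) (D : Divisor Qb F)
    (hD : ∀ P ∈ D.support, P.ord w = 0) :
    evalD w D = ((D.mapRange Int.toNat rfl).prod fun P n => (val P w) ^ n) *
      (((-D).mapRange Int.toNat rfl).prod fun P n => (val P w⁻¹) ^ n) := by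
  rw [Finsupp.prod_of_support_subset (D.mapRange Int.toNat rfl) (s := D.support)
      Finsupp.support_mapRange _ (fun _ _ => pow_zero _),
    Finsupp.prod_of_support_subset ((-D).mapRange Int.toNat rfl) (s := D.support)
      (by
        have := Finsupp.support_mapRange (f := Int.toNat) (hf := rfl) (g := -D)
        rwa [Finsupp.support_neg] at this) _ (fun _ _ => pow_zero _),
    ← Finset.prod_mul_distrib, Defs_evalD_def]
  refine Finset.prod_congr rfl fun P hP => ?_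
  rw [Finsupp.mapRange_apply, Finsupp.mapRange_apply, Finsupp.neg_apply,
    val_inv hw0 (hD P hP)]
  exact Ib_zpow_split _ _

theorem Ib_mem (R : RedData A 𝒪 r) (Ac : ActData A 𝒪 r φ) (h1 : HasDesc1 A 𝒪 φ) {Y : Type}
    [Fintype Y] [MulAction GQ Y] (Dv : Y → Divisor Qb F)
    (hDv : ∀ σ ∈ Dc A, ∀ y, Dv (σ • y) = φ σ • Dv y)
    (w : F) (hw0 : w ≠ 0) (hw : w ∈ 𝒪) (hw' : w⁻¹ ∈ 𝒪)
    (hdis : ∀ y, ∀ P ∈ (Dv y).support, ∀ Q, r Q = r P → Q.ord w = 0) :
    (fun y => evalD w (Dv y)) ∈ MD A Y := by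
  have hp : (fun y => ((Dv y).mapRange Int.toNat rfl).prod fun P n => (val P w) ^ n) ∈ MD A Y := by
    refine Ib_eff R Ac h1 (fun y => (Dv y).mapRange Int.toNat rfl) (fun σ hσ y => ?_) w hw
      (fun y P hP Q hQ => ?_)
    · show (Dv (σ • y)).mapRange Int.toNat rfl = _
      rw [hDv σ hσ y, Ib_toNat_smul]
    · exact (hdis y P (Finsupp.support_mapRange hP) Q hQ).ge
  have hm : (fun y => ((-Dv y).mapRange Int.toNat rfl).prod fun P n => (val P w⁻¹) ^ n) ∈
      MD A Y := by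
    refine Ib_eff R Ac h1 (fun y => (-Dv y).mapRange Int.toNat rfl) (fun σ hσ y => ?_) w⁻¹ hw'
      (fun y P hP Q hQ => ?_)
    · show (-Dv (σ • y)).mapRange Int.toNat rfl = _
      rw [hDv σ hσ y, ← smul_neg, Ib_toNat_smul]
    · have hP' : P ∈ (Dv y).support := by
        have := Finsupp.support_mapRange hP
        rwa [Finsupp.support_neg] at this
      rw [Q.ord_inv, hdis y P hP' Q hQ, neg_zero]
  have := mul_mem_MD hp hm
  have he : (fun y => evalD w (Dv y)) =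
      (fun y => ((Dv y).mapRange Int.toNat rfl).prod fun P n => (val P w) ^ n) *
      (fun y => ((-Dv y).mapRange Int.toNat rfl).prod fun P n => (val P w⁻¹) ^ n) := by
    funext y
    exact Ib_evalD_split w hw0 (Dv y) fun P hP => hdis y P hP P rfl
  rw [he]
  exact this

/-- (Ib).  [`E⁺ y := (Dv y).mapRange Int.toNat rfl`, `E⁻ y := (- Dv y).mapRange Int.toNat rfl`; both are
equivariant (`SemilinearAut.divisor_smul_def`, `Finsupp.mapRange`/`mapDomain` commute: check on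
`Finsupp.ext` with `SemilinearAut.divisor_smul_apply`).  For `x ≠ 0`:
`x ^ n = x ^ n.toNat * (x⁻¹) ^ (-n).toNat`, and `val P w⁻¹ = (val P w)⁻¹` on the supports, so
`evalD w (Dv y) = (E⁺ y).prod (val · w ^ ·) * (E⁻ y).prod (val · w⁻¹ ^ ·)`: `Ib_eff` for `w` and for
`w⁻¹`, `mul_mem_MD`.  Unit values: `val_unit` and products of units.] -/
theorem Ib (R : RedData A 𝒪 r) (Ac : ActData A 𝒪 r φ) (h1 : HasDesc1 A 𝒪 φ) {Y : Type}
    [Fintype Y] [MulAction GQ Y] (Dv : Y → Divisor Qb F)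
    (hDv : ∀ σ ∈ Dc A, ∀ y, Dv (σ • y) = φ σ • Dv y)
    (w : F) (hw0 : w ≠ 0) (hw : w ∈ 𝒪) (hw' : w⁻¹ ∈ 𝒪)
    (hdis : ∀ y, ∀ P ∈ (Dv y).support, ∀ Q, r Q = r P → Q.ord w = 0) :
    (fun y => evalD w (Dv y)) ∈ MD A Y ∧ ∀ y, evalD w (Dv y) ≠ 0 ∧ (evalD w (Dv y))⁻¹ ∈ A := by
  refine ⟨Ib_mem R Ac h1 Dv hDv w hw0 hw hw' hdis, fun y => ?_⟩
  have hD : Disj w (Dv y) :=
    ⟨hw0, fun P hP => hdis y P (Finsupp.mem_support_iff.2 hP) P rfl⟩
  refine ⟨evalD_ne_zero hD, ?_⟩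
  rw [← evalD_inv hD]
  exact apply_mem_of_mem_MD (Ib_mem R Ac h1 Dv hDv w⁻¹ (inv_ne_zero hw0) hw' (by rwa [inv_inv])
    fun y P hP Q hQ => by rw [Q.ord_inv, hdis y P hP Q hQ, neg_zero]) y

end Fermat.Agent.S19.I
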