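import Fermat.Agent.S19.I.Poly
import Fermat.Agent.S19.I.EV

/-!
# S19-I : (Ib) for effective divisors
-/

set_option autoImplicit false

noncomputable section

namespace Fermat.Agent.S19.I

open AlgebraicCurve Fermat.Agent.S17.FF Fermat.Agent.S19

variable {F : Type} [Field F] [Algebra Qb F] [IsFF Qb F]
variable {A : ValuationSubring Qb} {𝒪 : ValuationSubring F} {S : Type} {r : Place Qb F → S}
variable {φ : GQ →* SemilinearAut Qb F}

/-- the effective case.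
[`h1 w hw` gives `w = ∑ i, β i • g i`, `β i ∈ A`, `g i ∈ 𝒪` invariant under `Dc A`,
`g i ∈ span {φ σ • w | σ ∈ Dc A}`.  Apply `prod_sum_mem_MD` with `T := Place Qb F`,
`c i P := val P (g i)`, `ρ σ P := φ σ • P` (injective: `MulAction.injective`).
`hc`: `val (φ σ • P) (g i) = val (φ σ • P) (φ σ • g i) = baseAut (φ σ) (val P (g i))`
(`S17.FF.val_smul`) `= σ (val P (g i))` (`Ac.base`).
KEY: for `P ∈ (E y).support`, `r Q = r P`, `σ ∈ Dc A`: `0 ≤ Q.ord (φ σ • w)`.  Indeed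
`Q.ord (φ σ • w) = ((φ σ)⁻¹ • Q).ord w` (`S17.FF.ord_smul_eq` for `g = φ σ`... or `SemilinearAut.ord_smul`),
`(φ σ)⁻¹ = φ σ⁻¹`, `r (φ σ⁻¹ • Q) = r (φ σ⁻¹ • P)` (`Ac.dec`), and `φ σ⁻¹ • P ∈ (E (σ⁻¹ • y)).support`
(`hE`, `Finsupp.mapDomain_apply`); conclude by `hdis`.
So `0 ≤ Q.ord (g i)` (`ord_nonneg_of_mem_span`), `val P (g i) ∈ A` (`val_mem`) = `hcA`, and
`val P w = ∑ i, β i * val P (g i)` (`val_sum_smul`) for `P` in the support (`Finsupp.prod_congr`).] -/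
theorem Ib_eff (R : RedData A 𝒪 r) (Ac : ActData A 𝒪 r φ) (h1 : HasDesc1 A 𝒪 φ) {Y : Type}
    [Fintype Y] [MulAction GQ Y] (E : Y → Place Qb F →₀ ℕ)
    (hE : ∀ σ ∈ Dc A, ∀ y, E (σ • y) = (E y).mapDomain (fun P => φ σ • P))
    (w : F) (hw : w ∈ 𝒪)
    (hdis : ∀ y, ∀ P ∈ (E y).support, ∀ Q, r Q = r P → 0 ≤ Q.ord w) :
    (fun y => (E y).prod fun P n => (val P w) ^ n) ∈ MD A Y := by
  classical
  obtain ⟨ι, _, β, g, hβ, hg𝒪, hginv, hgspan, hw_eq⟩ := h1 w hw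
  have key : ∀ y, ∀ P ∈ (E y).support, ∀ Q, r Q = r P → ∀ σ ∈ Dc A, 0 ≤ Q.ord (φ σ • w) := by
    intro y P hP Q hQ σ hσ
    have hσ' : σ⁻¹ ∈ Dc A := (Dc A).inv_mem hσ
    have h1 : Q.ord (φ σ • w) = (φ σ⁻¹ • Q).ord w := by
      rw [ord_smul_eq, map_inv, inv_inv]
    rw [h1]
    refine hdis (σ⁻¹ • y) (φ σ⁻¹ • P) ?_ _ (Ac.dec σ⁻¹ hσ' Q P hQ)
    rw [hE σ⁻¹ hσ' y, Finsupp.mem_support_iff,
      Finsupp.mapDomain_apply (MulAction.injective (φ σ⁻¹))]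
    exact Finsupp.mem_support_iff.mp hP
  have hgord : ∀ y, ∀ P ∈ (E y).support, ∀ Q, r Q = r P → ∀ i, 0 ≤ Q.ord (g i) := by
    intro y P hP Q hQ i
    refine ord_nonneg_of_mem_span ?_ (hgspan i)
    rintro x ⟨σ, hσ, rfl⟩
    exact key y P hP Q hQ σ hσ
  have hmain := prod_sum_mem_MD (A := A) (Y := Y) β hβ E (fun i P => val P (g i))
    (fun σ P => φ σ • P) (fun σ _ => MulAction.injective (φ σ)) hE
    (fun σ hσ i P => by
      have h2 := val_smul (φ σ) P (g i)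
      rw [hginv i σ hσ, Ac.base] at h2
      exact h2)
    (fun y P hP i => val_mem R (hg𝒪 i) (fun Q hQ => hgord y P hP Q hQ i))
  have heq : (fun y => (E y).prod fun P n => (val P w) ^ n) =
      fun y => (E y).prod fun P n => (∑ i, β i * val P (g i)) ^ n := by
    funext y
    refine Finsupp.prod_congr fun P hP => ?_
    congr 1
    rw [hw_eq]
    exact (val_sum_smul Finset.univ β g P (fun i _ => hgord y P hP P rfl i)).2
  rw [heq]
  exact hmain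

end Fermat.Agent.S19.I
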