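import Fermat.Agent.S19.I.Defs

/-!
# S19-I : `MD A Y` is a ring of functions, closed under inverses of functions with unit values
-/

set_option autoImplicit false

noncomputable section

namespace Fermat.Agent.S19.I

open Fermat.Agent.S19

variable {A : ValuationSubring Qb} {Y : Type} [MulAction GQ Y]

theorem one_mem_ED (U : Subgroup GQ) : (1 : Y → Qb) ∈ ED A U Y := by
  refine ⟨fun _ => A.one_mem, fun σ _ x => ?_⟩
  simp only [Pi.one_apply, map_one]

theorem mul_mem_ED {U : Subgroup GQ} {a b : Y → Qb} (ha : a ∈ ED A U Y) (hb : b ∈ ED A U Y) :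
    a * b ∈ ED A U Y := by
  refine ⟨fun x => A.mul_mem _ _ (ha.1 x) (hb.1 x), fun σ hσ x => ?_⟩
  simp only [Pi.mul_apply, map_mul, ha.2 σ hσ x, hb.2 σ hσ x]

theorem mem_MD_of_mem_ED {a : Y → Qb} (ha : a ∈ ED A (Dc A) Y) : a ∈ MD A Y :=
  Submodule.subset_span ha

/-- [`(⟨c, hc⟩ : A) • f = c • f`.] -/
theorem smul_mem_MD {c : Qb} (hc : c ∈ A) {f : Y → Qb} (hf : f ∈ MD A Y) : c • f ∈ MD A Y := by
  exact (MD A Y).smul_mem (⟨c, hc⟩ : A) hf

theorem const_mem_MD {c : Qb} (hc : c ∈ A) : (fun _ : Y => c) ∈ MD A Y := by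
  have h := smul_mem_MD hc (mem_MD_of_mem_ED (one_mem_ED (A := A) (Y := Y) _))
  have e : c • (1 : Y → Qb) = fun _ : Y => c := by
    funext y
    simp only [Pi.smul_apply, Pi.one_apply, smul_eq_mul, mul_one]
  rwa [e] at h

theorem one_mem_MD : (1 : Y → Qb) ∈ MD A Y := mem_MD_of_mem_ED (one_mem_ED _)

/-- [`Submodule.span_induction` twice.] -/
theorem mul_mem_MD {f g : Y → Qb} (hf : f ∈ MD A Y) (hg : g ∈ MD A Y) : f * g ∈ MD A Y := by
  refine Submodule.span_induction (p := fun f _ => f * g ∈ MD A Y) ?_ ?_ ?_ ?_ hf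
  · intro a ha
    refine Submodule.span_induction (p := fun g _ => a * g ∈ MD A Y) ?_ ?_ ?_ ?_ hg
    · intro b hb
      exact mem_MD_of_mem_ED (mul_mem_ED ha hb)
    · rw [mul_zero]; exact (MD A Y).zero_mem
    · intro x y _ _ hx hy
      rw [mul_add]; exact (MD A Y).add_mem hx hy
    · intro c x _ hx
      rw [mul_smul_comm]; exact (MD A Y).smul_mem c hx
  · rw [zero_mul]; exact (MD A Y).zero_mem
  · intro x y _ _ hx hy
    rw [add_mul]; exact (MD A Y).add_mem hx hy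
  · intro c x _ hx
    rw [smul_mul_assoc]; exact (MD A Y).smul_mem c hx

theorem pow_mem_MD {f : Y → Qb} (hf : f ∈ MD A Y) (n : ℕ) : f ^ n ∈ MD A Y := by
  induction n with
  | zero => rw [pow_zero]; exact one_mem_MD
  | succ n ih => rw [pow_succ]; exact mul_mem_MD ih hf

theorem prod_mem_MD {ι : Type} (s : Finset ι) (f : ι → Y → Qb) (hf : ∀ i ∈ s, f i ∈ MD A Y) :
    ∏ i ∈ s, f i ∈ MD A Y := by
  exact Finset.prod_induction f (fun g => g ∈ MD A Y) (fun _ _ => mul_mem_MD) one_mem_MD hf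

theorem apply_mem_of_mem_MD {f : Y → Qb} (hf : f ∈ MD A Y) (y : Y) : f y ∈ A := by
  refine Submodule.span_induction (p := fun f _ => f y ∈ A) ?_ ?_ ?_ ?_ hf
  · intro a ha
    exact ha.1 y
  · exact A.zero_mem
  · intro a b _ _ ha hb
    exact A.add_mem _ _ ha hb
  · intro c a _ ha
    exact A.mul_mem _ _ c.2 ha

theorem MD_aeval_mem {f : Y → Qb} (hf : f ∈ MD A Y) (Q : Polynomial A) :
    Polynomial.aeval f Q ∈ MD A Y := by
  rw [Polynomial.aeval_eq_sum_range]
  exact Submodule.sum_mem _ fun i _ => Submodule.smul_mem _ _ (pow_mem_MD hf i)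

/-- (INV).  [`p := ∏_y (X - C (f y))` has coefficients in `A` (`apply_mem_of_mem_MD`), `p(f y) = 0`
for all `y`, and `p(0) = ± ∏_y f y` is a unit of `A`.  Write `p = X * q + C (p.coeff 0)`
(`Polynomial.divX_mul_X_add`): `(f y)⁻¹ = - (p.coeff 0)⁻¹ * q.eval (f y)`, and
`y ↦ q.eval (f y) = ∑_k q.coeff k * (f y) ^ k` is in `MD A Y` by `smul_mem_MD`, `pow_mem_MD`.] -/
theorem inv_mem_MD [Finite Y] {f : Y → Qb} (hf : f ∈ MD A Y)
    (hu : ∀ y, f y ≠ 0 ∧ (f y)⁻¹ ∈ A) : f⁻¹ ∈ MD A Y := by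
  classical
  cases nonempty_fintype Y
  let g : Y → A := fun y => ⟨f y, apply_mem_of_mem_MD hf y⟩
  let P : Polynomial A := ∏ y, (Polynomial.X - Polynomial.C (g y))
  have hP : ∀ y, Polynomial.aeval (f y) P = 0 := by
    intro y
    simp only [P, map_prod, map_sub, Polynomial.aeval_X, Polynomial.aeval_C]
    exact Finset.prod_eq_zero (Finset.mem_univ y) (sub_self _)
  have hc0 : algebraMap A Qb (P.coeff 0) = ∏ y, (- f y) := by
    rw [Polynomial.coeff_zero_eq_eval_zero, Polynomial.eval_prod, map_prod]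
    refine Finset.prod_congr rfl fun y _ => ?_
    simp only [Polynomial.eval_sub, Polynomial.eval_X, Polynomial.eval_C, zero_sub, map_neg]
    rfl
  have hc0inv : (∏ y, (- f y))⁻¹ ∈ A := by
    rw [← Finset.prod_inv_distrib]
    exact prod_mem (fun y _ => by rw [inv_neg]; exact A.neg_mem _ (hu y).2)
  have hc0ne : (∏ y, (- f y)) ≠ 0 :=
    Finset.prod_ne_zero_iff.mpr fun y _ => neg_ne_zero.mpr (hu y).1
  have hq := MD_aeval_mem hf P.divX
  have hmem := smul_mem_MD (A.neg_mem _ hc0inv) hq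
  have e : f⁻¹ = (-(∏ y, (- f y))⁻¹) • Polynomial.aeval f P.divX := by
    funext y
    have h1 : (Polynomial.aeval f P.divX) y = Polynomial.aeval (f y) P.divX :=
      (Polynomial.aeval_algHom_apply (Pi.evalAlgHom A (fun _ : Y => Qb) y) f P.divX).symm
    have h2 : Polynomial.aeval (f y) P.divX * f y + ∏ y, (- f y) = 0 := by
      have h3 := hP y
      rw [← Polynomial.divX_mul_X_add P, map_add, map_mul, Polynomial.aeval_X,
        Polynomial.aeval_C, hc0] at h3
      exact h3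
    rw [Pi.inv_apply, Pi.smul_apply, h1, smul_eq_mul]
    have hy := (hu y).1
    field_simp
    linear_combination h2
  rw [e]
  exact hmem

theorem zpow_mem_MD [Finite Y] {f : Y → Qb} (hf : f ∈ MD A Y)
    (hu : ∀ y, f y ≠ 0 ∧ (f y)⁻¹ ∈ A) (n : ℤ) : f ^ n ∈ MD A Y := by
  cases n with
  | ofNat n =>
    rw [Int.ofNat_eq_natCast, zpow_natCast]
    exact pow_mem_MD hf n
  | negSucc n =>
    rw [zpow_negSucc, ← inv_pow]
    exact pow_mem_MD (inv_mem_MD hf hu) _

end Fermat.Agent.S19.I
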