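import Fermat.Agent.S19.I.Ia
import Fermat.Agent.S19.I.Ib
import Fermat.Agent.S19.I.Desc1

/-!
# S19-I : the abstract integrality theorem
-/

set_option autoImplicit false

noncomputable section

namespace Fermat.Agent.S19.I

open AlgebraicCurve Fermat.Agent.S17.FF Fermat.Agent.S19 Fermat.Agent.S19.W

variable {F : Type} [Field F] [Algebra Qb F] [IsFF Qb F]
variable {A : ValuationSubring Qb} {𝒪 : ValuationSubring F} {S : Type} {r : Place Qb F → S}
variable {φ : GQ →* SemilinearAut Qb F}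

/-- constants do not matter on divisors of degree `0`.
[`W.evalD_div`, `W.disj_algebraMap`, `W.evalD_algebraMap_of_degree_eq_zero`.] -/
theorem evalD_div_const {f : F} {κ : Qb} (hκ : κ ≠ 0) {E : Divisor Qb F}
    (hE : Divisor.degree E = 0) (h : Disj f E) :
    evalD (f / algebraMap Qb F κ) E = evalD f E := by
  rw [evalD_div h (disj_algebraMap hκ E), evalD_algebraMap_of_degree_eq_zero hκ hE, div_one]

/-- [`(fun y => evalD (u y) E) = ∏ P ∈ E.support, (fun y => val P (u y)) ^ E P`; `Ia`, `zpow_mem_MD`,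
`prod_mem_MD`.] -/
theorem Ia_evalD (R : RedData A 𝒪 r) (hD : HasDesc A 𝒪 φ) {Y : Type} [Fintype Y] [MulAction GQ Y]
    (hY : FinLevel Y) (u : Y → F) (hu0 : ∀ y, u y ≠ 0) (hu𝒪 : ∀ y, u y ∈ 𝒪 ∧ (u y)⁻¹ ∈ 𝒪)
    (hu : ∀ σ ∈ Dc A, ∀ y, u (σ • y) = φ σ • u y) (E : Divisor Qb F)
    (hP : ∀ y, ∀ P ∈ E.support, ∀ Q, r Q = r P → Q.ord (u y) = 0) :
    (fun y => evalD (u y) E) ∈ MD A Y := by
  have e : (fun y => evalD (u y) E) = ∏ P ∈ E.support, (fun y => val P (u y)) ^ E P := by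
    funext y
    rw [Finset.prod_apply]
    rfl
  rw [e]
  apply prod_mem_MD
  intro P hPs
  have h := Ia R hD hY u hu0 hu𝒪 hu P (fun y Q hQ => hP y P hPs Q hQ)
  exact zpow_mem_MD h.1 h.2 _

/-- dividing by a nonzero constant does not change the orders. -/
theorem Main_ord_div_const (Q : Place Qb F) {f : F} (hf : f ≠ 0) {κ : Qb} (hκ : κ ≠ 0) :
    Q.ord (f / algebraMap Qb F κ) = Q.ord f := by
  have hκ' : algebraMap Qb F κ ≠ 0 := (map_ne_zero _).mpr hκ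
  rw [div_eq_mul_inv, Q.ord_mul hf (inv_ne_zero hκ'), Q.ord_inv,
    Fermat.Agent.S24.Zeros.ord_algebraMap, neg_zero, add_zero]

theorem Main_disj {f : F} (hf : f ≠ 0) {E : Divisor Qb F}
    (h : ∀ P ∈ E.support, ∀ Q, r Q = r P → Q.ord f = 0) : Disj f E :=
  ⟨hf, fun P hP => h P (Finsupp.mem_support_iff.2 hP) P rfl⟩

/-- **the abstract form of (GEO-I).**
[`κ` from `hN Y u hu0 hu`; `u' y := u y / algebraMap (κ y)` is equivariant
(`smul_div'`/`map_div₀`, `SemilinearAut.smul_algebraMap`, `Ac.base`), has the same orders as `u y`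
(`Place.ord_mul`, order of a constant is `0`: `divf_algebraMap`), `evalD (u' y) E = evalD (u y) E`
(`evalD_div_const`); `Ia_evalD` for `u'`.  `κ₀` from `R.gauss.norm w hw0`, `w' := w / algebraMap κ₀`,
`evalD w' (Dv y) = evalD w (Dv y)`; `Ib` for `w'` with `hasDesc1 Ac hD hO`; `inv_mem_MD`, `mul_mem_MD`.] -/
theorem main (R : RedData A 𝒪 r) (Ac : ActData A 𝒪 r φ) (hN : HasNorm A 𝒪 φ)
    (hD : HasDesc A 𝒪 φ) (hO : HasOrb φ) {Y : Type} [Fintype Y] [MulAction GQ Y]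
    (hY : FinLevel Y) (u : Y → F) (Dv : Y → Divisor Qb F) (hu0 : ∀ y, u y ≠ 0)
    (hu : ∀ σ ∈ Dc A, ∀ y, u (σ • y) = φ σ • u y)
    (hDv : ∀ σ ∈ Dc A, ∀ y, Dv (σ • y) = φ σ • Dv y)
    (hdeg : ∀ y, Divisor.degree (Dv y) = 0)
    (w : F) (hw0 : w ≠ 0) (E : Divisor Qb F) (hE : Divisor.degree E = 0)
    (h1 : ∀ y, ∀ P ∈ E.support, ∀ Q, r Q = r P → Q.ord (u y) = 0)
    (h2 : ∀ y, ∀ P ∈ (Dv y).support, ∀ Q, r Q = r P → Q.ord w = 0) :
    (fun y => evalD (u y) E / evalD w (Dv y)) ∈ MD A Y := by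
  obtain ⟨κ, hκ0, hκeq, hκ𝒪⟩ := hN Y u hu0 hu
  have hκ' : ∀ y, algebraMap Qb F (κ y) ≠ 0 := fun y => (map_ne_zero _).mpr (hκ0 y)
  have hA : (fun y => evalD (u y / algebraMap Qb F (κ y)) E) ∈ MD A Y := by
    refine Ia_evalD R hD hY (fun y => u y / algebraMap Qb F (κ y))
      (fun y => div_ne_zero (hu0 y) (hκ' y)) hκ𝒪 ?_ E ?_
    · intro σ hσ y
      show u (σ • y) / algebraMap Qb F (κ (σ • y)) = φ σ • (u y / algebraMap Qb F (κ y))
      rw [hu σ hσ y, hκeq σ hσ y, div_eq_mul_inv, div_eq_mul_inv, smul_mul', smul_inv'',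
        SemilinearAut.smul_algebraMap, Ac.base]
    · intro y P hP Q hQ
      show Q.ord (u y / algebraMap Qb F (κ y)) = 0
      rw [Main_ord_div_const Q (hu0 y) (hκ0 y)]
      exact h1 y P hP Q hQ
  have hA' : (fun y => evalD (u y / algebraMap Qb F (κ y)) E) = fun y => evalD (u y) E := by
    funext y
    exact evalD_div_const (hκ0 y) hE (Main_disj (r := r) (hu0 y) (h1 y))
  rw [hA'] at hA
  obtain ⟨κ₀, hκ₀, hw1, hw2⟩ := R.gauss.norm w hw0
  have hκ₀' : algebraMap Qb F κ₀ ≠ 0 := (map_ne_zero _).mpr hκ₀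
  have hB := Ib R Ac (hasDesc1 Ac hD hO) Dv hDv (w / algebraMap Qb F κ₀)
    (div_ne_zero hw0 hκ₀') hw1 hw2 (by
      intro y P hP Q hQ
      rw [Main_ord_div_const Q hw0 hκ₀]
      exact h2 y P hP Q hQ)
  have hB' : (fun y => evalD (w / algebraMap Qb F κ₀) (Dv y)) = fun y => evalD w (Dv y) := by
    funext y
    exact evalD_div_const hκ₀ (hdeg y) (Main_disj (r := r) hw0 (h2 y))
  have hB2 : ∀ y, evalD w (Dv y) ≠ 0 ∧ (evalD w (Dv y))⁻¹ ∈ A := by
    intro y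
    have := hB.2 y
    rwa [congrFun hB' y] at this
  have hB1 := hB.1
  rw [hB'] at hB1
  have e : (fun y => evalD (u y) E / evalD w (Dv y))
      = (fun y => evalD (u y) E) * (fun y => evalD w (Dv y))⁻¹ := by
    funext y
    rw [Pi.mul_apply, Pi.inv_apply, div_eq_mul_inv]
  rw [e]
  exact mul_mem_MD hA (inv_mem_MD hB1 hB2)

end Fermat.Agent.S19.I
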