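import Fermat.Agent.S19.I.MD

/-!
# S19-I : the norm of an element of `MD` along an equivariant family of finite multisets
-/

set_option autoImplicit false

noncomputable section

namespace Fermat.Agent.S19.I

open Fermat.Agent.S19

variable {A : ValuationSubring Qb} {Y : Type} [Fintype Y] [MulAction GQ Y]

/-- auxiliary: the generic norm polynomial attached to a multiset `e`. -/
def Poly_pol {ι T : Type} [Fintype ι] (c : ι → T → Qb) (e : T →₀ ℕ) : MvPolynomial ι Qb :=
  e.prod fun P n => (∑ i, MvPolynomial.C (c i P) * MvPolynomial.X i) ^ n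

theorem Poly_eval {ι T : Type} [Fintype ι] (β : ι → Qb) (c : ι → T → Qb) (e : T →₀ ℕ) :
    MvPolynomial.eval β (Poly_pol c e) = e.prod fun P n => (∑ i, β i * c i P) ^ n := by
  unfold Poly_pol Finsupp.prod
  rw [map_prod]
  refine Finset.prod_congr rfl fun P _ => ?_
  rw [map_pow, map_sum]
  congr 1
  refine Finset.sum_congr rfl fun i _ => ?_
  rw [map_mul, MvPolynomial.eval_C, MvPolynomial.eval_X, mul_comm]

theorem Poly_coeff_mem {ι T : Type} [Fintype ι] (c : ι → T → Qb) (e : T →₀ ℕ)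
    (h : ∀ P ∈ e.support, ∀ i, c i P ∈ A) (α : ι →₀ ℕ) :
    MvPolynomial.coeff α (Poly_pol c e) ∈ A := by
  have hmem : Poly_pol c e ∈ (MvPolynomial.map (σ := ι) A.subtype).range := by
    unfold Poly_pol Finsupp.prod
    refine Subring.prod_mem _ fun P hP => pow_mem (sum_mem fun i _ => ?_) _
    refine ⟨MvPolynomial.C ⟨c i P, h P hP i⟩ * MvPolynomial.X i, ?_⟩
    rw [map_mul, MvPolynomial.map_C, MvPolynomial.map_X]
    rfl
  obtain ⟨q, hq⟩ := hmem
  rw [← hq, MvPolynomial.coeff_map]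
  exact (MvPolynomial.coeff α q).2

theorem Poly_map {ι T : Type} [Fintype ι] (σ : GQ) (c : ι → T → Qb) (e : T →₀ ℕ) (ρ : T → T)
    (hρ : Function.Injective ρ) (hc : ∀ i P, c i (ρ P) = σ (c i P)) :
    Poly_pol c (e.mapDomain ρ) = MvPolynomial.map (σ : Qb →+* Qb) (Poly_pol c e) := by
  unfold Poly_pol
  rw [Finsupp.prod_mapDomain_index_inj (M := ℕ) (s := e) hρ]
  unfold Finsupp.prod
  rw [map_prod]
  refine Finset.prod_congr rfl fun P _ => ?_
  rw [map_pow, map_sum]
  show (∑ i, MvPolynomial.C (c i (ρ P)) * MvPolynomial.X i) ^ e P = _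
  congr 1
  refine Finset.sum_congr rfl fun i _ => ?_
  rw [map_mul, MvPolynomial.map_C, MvPolynomial.map_X, hc]
  rfl

/-- [`pol y := (E y).prod fun P n => (∑ i, MvPolynomial.C (c i P) * MvPolynomial.X i) ^ n`
in `MvPolynomial ι Qb`.
(1) `MvPolynomial.eval β (pol y)` is the value of the function at `y` (`map_finsuppProd`/`map_prod`).
(2) all coefficients of `pol y` are in `A`: `pol y` lies in the subring
`(MvPolynomial.map A.subtype).range` (`hcA`; `Subring.prod_mem`, `pow_mem`, `sum_mem`), `coeff_map`.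
(3) `pol (σ • y) = MvPolynomial.map σ (pol y)` for `σ ∈ Dc A`
(`hE`, `Finsupp.prod_mapDomain_index_inj (hρ σ hσ)`, `hc`), so `coeff α (pol (σ • y)) = σ (coeff α (pol y))`.
So `y ↦ coeff α (pol y)` is in `ED A (Dc A) Y`.
(4) with `T₀ := Finset.univ.biUnion fun y => (pol y).support`:
`eval β (pol y) = ∑ α ∈ T₀, coeff α (pol y) * ∏ i, β i ^ α i` (`MvPolynomial.eval_eq`,
`Finset.sum_subset`), and `∏ i, β i ^ α i ∈ A`.] -/
theorem prod_sum_mem_MD {ι T : Type} [Fintype ι] (β : ι → Qb) (hβ : ∀ i, β i ∈ A)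
    (E : Y → T →₀ ℕ) (c : ι → T → Qb) (ρ : GQ → T → T)
    (hρ : ∀ σ ∈ Dc A, Function.Injective (ρ σ))
    (hE : ∀ σ ∈ Dc A, ∀ y, E (σ • y) = (E y).mapDomain (ρ σ))
    (hc : ∀ σ ∈ Dc A, ∀ i P, c i (ρ σ P) = σ (c i P))
    (hcA : ∀ y, ∀ P ∈ (E y).support, ∀ i, c i P ∈ A) :
    (fun y => (E y).prod fun P n => (∑ i, β i * c i P) ^ n) ∈ MD A Y := by
  classical
  have hED : ∀ α : ι →₀ ℕ,
      (fun y => MvPolynomial.coeff α (Poly_pol c (E y))) ∈ ED A (Dc A) Y := by
    intro α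
    refine ⟨fun y => Poly_coeff_mem c (E y) (hcA y) α, fun σ hσ y => ?_⟩
    show MvPolynomial.coeff α (Poly_pol c (E (σ • y)))
      = σ (MvPolynomial.coeff α (Poly_pol c (E y)))
    rw [hE σ hσ, Poly_map σ c (E y) (ρ σ) (hρ σ hσ) (hc σ hσ), MvPolynomial.coeff_map]
    rfl
  have e : (fun y => (E y).prod fun P n => (∑ i, β i * c i P) ^ n)
      = ∑ α ∈ Finset.univ.biUnion fun y => (Poly_pol c (E y)).support,
        (∏ i, β i ^ α i) • (fun y => MvPolynomial.coeff α (Poly_pol c (E y))) := by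
    funext y
    rw [← Poly_eval, MvPolynomial.eval_eq', Finset.sum_apply]
    have hsub : (Poly_pol c (E y)).support
        ⊆ Finset.univ.biUnion fun y => (Poly_pol c (E y)).support :=
      Finset.subset_biUnion_of_mem (fun y => (Poly_pol c (E y)).support) (Finset.mem_univ y)
    rw [Finset.sum_subset hsub fun α _ hα => by
      rw [MvPolynomial.notMem_support_iff.1 hα, zero_mul]]
    refine Finset.sum_congr rfl fun α _ => ?_
    rw [Pi.smul_apply, smul_eq_mul, mul_comm]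
  rw [e]
  exact Submodule.sum_mem _ fun α _ =>
    smul_mem_MD (prod_mem fun i _ => pow_mem (hβ i) _) (mem_MD_of_mem_ED (hED α))

end Fermat.Agent.S19.I
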